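/-
S44, cell [C2] OLD-k, (DENS-p), abstract core (helper8; design: helper3 #3897; prefix `s44kd_`).

`J` an abelian group with an action of a group `G`, `red : J →+ Jb`, `(Qe, Qb)` a pair of
endomorphisms of `J`, `Jb` with
  (a) `Qe` is `G`-equivariant, (b) `red ∘ Qe = Qb ∘ red`, (c) `Qe` kills the `p`-power torsion of `J`.
If `y ∈ J` is infinitely `p`-divisible, fixed by some `τ ∈ G` with the property that the reductions
of the `τ`-fixed points are killed by ONE integer `h ≥ 1`, then `p • red y = 0 ⟹ Qb (red y) = 0`.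

(The classical "an infinitely divisible rational point dies in the finite group of `𝔽_q`-rational
classes".)
-/
import Mathlib

set_option autoImplicit false

namespace Fermat.Agent.S44

/-- **(DENS-p), abstract form.** -/
theorem s44kd_dens_abs {J Jb G : Type*} [AddCommGroup J] [AddCommGroup Jb] [Group G]
    [DistribMulAction G J] (p : ℕ) (hp : p.Prime) (red : J →+ Jb) (Qe : J →+ J) (Qb : Jb →+ Jb)
    (ha : ∀ (σ : G) (x : J), Qe (σ • x) = σ • Qe x)
    (hb : ∀ x : J, red (Qe x) = Qb (red x))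
    (hc : ∀ x : J, (∃ n : ℕ, p ^ n • x = 0) → Qe x = 0)
    (y : J) (hdiv : ∀ b : ℕ, ∃ w : J, p ^ b • w = y)
    (τ : G) (hτy : τ • y = y)
    (h : ℕ) (hh : 1 ≤ h) (hfix : ∀ u : J, τ • u = u → h • red u = 0)
    (hy : p • red y = 0) : Qb (red y) = 0 := by
  -- `h = p ^ b * m'` with `p ∤ m'`
  obtain ⟨b, m', hm', hhm⟩ := Nat.exists_eq_pow_mul_and_not_dvd (by omega : h ≠ 0) p hp.ne_one
  obtain ⟨w, hw⟩ := hdiv b
  -- `u := Qe w` is fixed by `τ`
  have hu : τ • Qe w = Qe w := by
    have h1 : p ^ b • (τ • w - w) = 0 := by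
      rw [smul_sub, ← smul_comm τ (p ^ b) w, hw, hτy, sub_self]
    have h2 := hc (τ • w - w) ⟨b, h1⟩
    rw [map_sub, sub_eq_zero] at h2
    rw [← ha, h2]
  have h3 : h • red (Qe w) = 0 := hfix _ hu
  -- `red (Qe y) = p ^ b • red (Qe w)` is killed by `m'`
  have h4 : red (Qe y) = p ^ b • red (Qe w) := by
    rw [← hw, map_nsmul, map_nsmul]
  have h5 : m' • Qb (red y) = 0 := by
    rw [← hb, h4, ← mul_smul, mul_comm, ← hhm]
    exact h3
  have h6 : p • Qb (red y) = 0 := by
    rw [← map_nsmul, hy, map_zero]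
  -- coprimality
  have hcop : Nat.Coprime p m' := (Nat.Prime.coprime_iff_not_dvd hp).2 hm'
  have h7 : (Nat.gcd p m') • Qb (red y) = 0 := by
    have := Nat.gcd_eq_gcd_ab p m'
    have hz : ((Nat.gcd p m' : ℕ) : ℤ) • Qb (red y) = 0 := by
      rw [this, add_smul, mul_comm (p : ℤ), mul_comm (m' : ℤ), mul_smul, mul_smul,
        natCast_zsmul, natCast_zsmul, h6, h5, smul_zero, smul_zero, add_zero]
    rwa [natCast_zsmul] at hz
  rw [hcop, one_smul] at h7
  exact h7

end Fermat.Agent.S44
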