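/-
S44, cell [C2] OLD-k, route (C), item (k2a) (helper15; prefix `s44k2_`): THE REDUCTION MAP
`reductionModL A M : J₀(M)(ℚ̄) → Pic⁰(F̃_M)` (`A` a place of `ℚ̄` over `ℓ ∤ M`) IS ONTO.

* `s44k2_place_surj` : the place reduction `placeReductionModL h` is onto: a place `Q` of the special
  fibre has `Q.ord ḡ ≠ 0` for some `ḡ`, `ḡ = ȳ_a / ȳ_b` is a quotient of reductions of `q`-integral
  functions (`jt_exists_lift`), so `Q` is in the support of `div ȳ = r_* (div y)`;
* `s44k2_div_surj`   : every divisor of degree `0` of the special fibre is the reduction of a divisor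
  of degree `0`;
* **`s44k2_red_surj`** : `Function.Surjective (reductionModL A M)`.
-/
import Mathlib
import Fermat.Agent.JT3.S18Glue
import Fermat.Agent.JT3.ES.RiemannFbar
import Fermat.Agent.JT3.PlaceMap.WireNodeE
import Fermat.Agent.S24.Hurwitz.Places

set_option autoImplicit false
set_option linter.unusedSectionVars false
set_option linter.style.haveILetI false
set_option synthInstance.maxHeartbeats 400000
set_option maxHeartbeats 1000000

noncomputable section

namespace Fermat.Agent.S44

open ModularCurve AlgebraicCurve HahnSeries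
open Fermat.Agent.JT3 Fermat.Agent.S24

local notation "Qb" => AlgebraicClosure ℚ

variable {A : ValuationSubring Qb} {N : ℕ} [NeZero N]

local notation "kA" => IsLocalRing.ResidueField A

/-- the place reduction is onto -/
theorem s44k2_place_surj (h : ReductionInputsModL A N) :
    Function.Surjective (placeReductionModL h) := by
  classical
  intro Q
  have hr := isPlaceReductionModL_placeReductionModL h
  -- a function with a pole at `Q`
  obtain ⟨g, hg⟩ : ∃ g : modularFunctionFieldFullC kA N, g ∉ Q.toValuationSubring := by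
    by_contra hcon
    push Not at hcon
    exact Q.ne_top' (SetLike.ext fun x => ⟨fun _ => ValuationSubring.mem_top x, fun _ => hcon x⟩)
  have hg0 : g ≠ 0 := fun h0 => hg (h0 ▸ Q.toValuationSubring.zero_mem)
  have hordg : Q.ord g ≠ 0 := by
    intro h0
    exact hg ((hw_mem_iff_ord_nonneg Q hg0).mpr h0.ge)
  obtain ⟨ya, yb, hab⟩ := jt_exists_lift (A := A) (N := N) g hg0
  -- one of the two reductions has nonzero order at `Q`
  obtain ⟨y, hy⟩ : ∃ y : jt_IntFun A N, Q.ord (jt_red y) ≠ 0 := by
    by_contra hcon
    push Not at hcon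
    have h1 := hcon ya
    rw [hab, Place.ord_mul Q hg0 (jt_red_ne_zero yb), hcon yb, add_zero] at h1
    exact hordg h1
  obtain ⟨Df, hDf, -⟩ := (est_riemann_fbar N).prin (jt_gen y) (jt_gen_ne_zero y)
  have hQ : Finsupp.mapDomain (placeReductionModL h) Df Q = Q.ord (jt_red y) :=
    hr.2 y.1 y.2.1 y.2.2.1 y.2.2.2 Df hDf Q
  have hmem : Q ∈ (Finsupp.mapDomain (placeReductionModL h) Df).support := by
    rw [Finsupp.mem_support_iff, hQ]
    exact hy
  have := Finsupp.mapDomain_support hmem
  obtain ⟨P, -, hP⟩ := Finset.mem_image.mp this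
  exact ⟨P, hP⟩

/-- every divisor of the special fibre is the reduction of a divisor of the same degree -/
theorem s44k2_div_surj (h : ReductionInputsModL A N)
    (E : Divisor kA (modularFunctionFieldFullC kA N)) :
    ∃ D : Divisor Qb (modularFunctionFieldBar N),
      Finsupp.mapDomain (placeReductionModL h) D = E ∧ Divisor.degree D = Divisor.degree E := by
  classical
  have hr := isPlaceReductionModL_placeReductionModL h
  set s := Function.surjInv (s44k2_place_surj h) with hs
  refine ⟨Finsupp.mapDomain s E, ?_, ?_⟩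
  · rw [← Finsupp.mapDomain_comp]
    have : (placeReductionModL h) ∘ s = id := by
      funext Q
      exact Function.surjInv_eq (s44k2_place_surj h) Q
    rw [this, Finsupp.mapDomain_id]
  · rw [← degree_mapDomain_of_deg_eq (r := placeReductionModL h) hr.1 (Finsupp.mapDomain s E),
      ← Finsupp.mapDomain_comp]
    have : (placeReductionModL h) ∘ s = id := by
      funext Q
      exact Function.surjInv_eq (s44k2_place_surj h) Q
    rw [this, Finsupp.mapDomain_id]

/-- **(k2a)**: the reduction map on `Pic⁰` is onto, given the reduction inputs. -/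
theorem s44k2_red_surj_of (h : ReductionInputsModL A N) :
    Function.Surjective (reductionModL A N) := by
  intro x
  obtain ⟨⟨E, hE⟩, rfl⟩ := Pic0.mk_surjective x
  obtain ⟨D, hDE, hdeg⟩ := s44k2_div_surj h E
  have hD0 : D ∈ Divisor.degZero (K := Qb) (F := modularFunctionFieldBar N) := by
    rw [Divisor.mem_degZero, hdeg]
    exact Divisor.mem_degZero.mp hE
  refine ⟨Pic0.mk ⟨D, hD0⟩, ?_⟩
  rw [reductionModL_mk h]
  congr 1
  apply Subtype.ext
  rw [coe_reductionDegZeroAlong]
  exact hDE

/-- **(k2a)**: for `A` over a prime `ℓ ∤ N` the reduction map `J₀(N)(ℚ̄) → Pic⁰(F̃_N)` is onto. -/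
theorem s44k2_red_surj (N ℓ : ℕ) [NeZero N] (hℓ : ℓ.Prime) (hℓN : ¬ ℓ ∣ N)
    (A : ValuationSubring Qb) (hA : A.LiesOverPrime ℓ) :
    Function.Surjective (reductionModL A N) :=
  s44k2_red_surj_of (rpw_nodeE N ℓ hℓ hℓN A hA)

end Fermat.Agent.S44
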