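/-
S44, cell [C2] OLD-k, (DENS-p) AT `J₀(M)` (helper8; design: helper3 #3897; prefix `s44kd_`).

`A` a valuation subring of `ℚ̄` over `p ∤ M`, `red := reductionModL A M : J₀(M)(ℚ̄) → Pic⁰(F̃_M / k)`.
For a pair of endomorphisms `(Qe, Qb)` with
  (a) `Qe` Galois-equivariant, (b) `red ∘ Qe = Qb ∘ red`, (c) `Qe` kills the `p`-power torsion,
and every infinitely `p`-divisible `y` with `p • red y = 0`: `Qb (red y) = 0`.

* `s44kd_exists_pow_fix` : some positive power of `σ ∈ G_ℚ` fixes a given number field pointwise;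
* `s44kd_frob_pow`       : the `m`-th power of a Frobenius element acts on the residue field by
                           `c ↦ c ^ (p ^ m)`;
* `s44kd_dens_of_div`    : (DENS-p) for one `y` which is infinitely `p`-divisible;
* **`s44kd_dens`**       : (DENS-p) from (DIV-p) (`hdiv`), in the shape of the hypothesis `hdens` of
                           helper1's `s44c_level_of_dens`.
-/
import Mathlib
import Fermat.Agent.S44.OldK.DensAbs
import Fermat.Agent.S44.OldK.RedSurj
import Fermat.Agent.S35.AbelInst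
import Fermat.Agent.JT3.ES.GaloisRed
import Fermat.Agent.JT3.ES.FrobExists
import Fermat.Agent.JT3.ES.Smooth

set_option autoImplicit false
set_option linter.unusedSectionVars false
set_option linter.style.haveILetI false
set_option synthInstance.maxHeartbeats 400000
set_option maxHeartbeats 1000000

noncomputable section

namespace Fermat.Agent.S44

open ModularCurve AlgebraicCurve
open Fermat.Agent.JT3 Fermat.Agent.S24 Fermat.Agent.S35

local notation "Qb" => AlgebraicClosure ℚ
local notation "GQ" => (AlgebraicClosure ℚ ≃ₐ[ℚ] AlgebraicClosure ℚ)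

/-- some positive power of `σ` fixes a given number field pointwise -/
theorem s44kd_exists_pow_fix (L : IntermediateField ℚ Qb) [FiniteDimensional ℚ L] (σ : GQ) :
    ∃ m : ℕ, 1 ≤ m ∧ ∀ x ∈ L, (σ ^ m) x = x := by
  classical
  haveI : Finite (L →ₐ[ℚ] Qb) := Finite.of_fintype _
  let f : ℕ → (L →ₐ[ℚ] Qb) := fun i => ((σ ^ i : GQ) : Qb →ₐ[ℚ] Qb).comp L.val
  obtain ⟨i, j, hij, hf⟩ := Finite.exists_ne_map_eq_of_infinite f
  -- WLOG `i < j`
  have key : ∀ i j : ℕ, i < j → f i = f j → ∃ m : ℕ, 1 ≤ m ∧ ∀ x ∈ L, (σ ^ m) x = x := by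
    intro i j hlt hf
    refine ⟨j - i, by omega, fun x hx => ?_⟩
    have h1 := DFunLike.congr_fun hf ⟨x, hx⟩
    have h2 : (σ ^ i) x = (σ ^ j) x := h1
    have h3 : σ ^ j = σ ^ i * σ ^ (j - i) := by
      rw [← pow_add]; congr 1; omega
    rw [h3, AlgEquiv.mul_apply] at h2
    exact ((σ ^ i).injective h2).symm
  rcases lt_or_gt_of_ne hij with h | h
  · exact key i j h hf
  · exact key j i h hf.symm

variable {A : ValuationSubring Qb}

/-- the `m`-th power of a Frobenius element acts on the residue field by `c ↦ c ^ (p ^ m)` -/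
theorem s44kd_frob_pow {p : ℕ} (σ : GQ) (hσ : A.IsFrobeniusAt σ p) (m : ℕ)
    (c : IsLocalRing.ResidueField A) :
    egr_phi ((⟨σ, hσ.mem_decompositionSubgroup⟩ : A.decompositionSubgroup ℚ) ^ m) c =
      c ^ (p ^ m) := by
  induction m generalizing c with
  | zero => simp
  | succ m ih =>
    rw [egr_phi_apply, pow_succ, mul_smul]
    have h1 := ih ((⟨σ, hσ.mem_decompositionSubgroup⟩ : A.decompositionSubgroup ℚ) • c)
    rw [egr_phi_apply] at h1
    rw [h1, hσ.smul_residue_eq c, ← pow_mul, pow_succ, mul_comm]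

variable (M p : ℕ) [NeZero M]

/-- **(DENS-p)** for one infinitely `p`-divisible class `y`. -/
theorem s44kd_dens_of_div (hp : p.Prime) (hpM : ¬ p ∣ M) (A : ValuationSubring Qb)
    (hA : A.LiesOverPrime p)
    (Qe : JZero M →+ JZero M)
    (Qr : JZeroC (IsLocalRing.ResidueField A) M →+ JZeroC (IsLocalRing.ResidueField A) M)
    (ha : ∀ (σ : GQ) (x : JZero M), Qe (σ • x) = σ • Qe x)
    (hb : ∀ x : JZero M, reductionModL A M (Qe x) = Qr (reductionModL A M x))
    (hc : ∀ x : JZero M, (∃ n : ℕ, p ^ n • x = 0) → Qe x = 0)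
    (y : JZero M) (hdiv : ∀ b : ℕ, ∃ w : JZero M, p ^ b • w = y)
    (hy : p • reductionModL A M y = 0) : Qr (reductionModL A M y) = 0 := by
  haveI : Fact p.Prime := ⟨hp⟩
  -- a number field fixing `y`
  obtain ⟨L, hL, hLy⟩ := egs_exists_fixing M y
  haveI := hL
  -- a Frobenius element and a power of it fixing `L`
  obtain ⟨σ, hσ⟩ := fex_exists_isFrobeniusAt hp A hA
  obtain ⟨m, hm1, hm⟩ := s44kd_exists_pow_fix L σ
  set g : A.decompositionSubgroup ℚ := ⟨σ, hσ.mem_decompositionSubgroup⟩ ^ m with hg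
  have hgτ : ((g : A.decompositionSubgroup ℚ) : GQ) = σ ^ m := by
    rw [hg]; rfl
  have hτy : (σ ^ m) • y = y := hLy (σ ^ m) hm
  -- the reduction data
  have h : ReductionInputsModL A M := rpw_nodeE M p hp hpM A hA
  haveI := jcr_charP A hA
  haveI := jcr_isAlgClosed A
  -- the exponent of the Frobenius-fixed classes
  have hφ : ∀ c : IsLocalRing.ResidueField A, egr_phi g c = c ^ (p ^ m) :=
    fun c => s44kd_frob_pow σ hσ m c
  have h2 : 2 ≤ p ^ m := by
    calc 2 ≤ p := hp.two_le
      _ = p ^ 1 := (pow_one p).symm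
      _ ≤ p ^ m := Nat.pow_le_pow_right hp.pos hm1
  obtain ⟨e, he1, he⟩ := s35b_exists_exponent (jcr_isSepGen (k := IsLocalRing.ResidueField A) M hpM
    (jcr_rho A hA)) (ca_aut (IsLocalRing.ResidueField A) M (egr_phi g)) (p ^ m) h2
    (s35b_ca_baseAut M (egr_phi g) hφ) (s35b_ca_smul_j M (egr_phi g))
  refine s44kd_dens_abs p hp (reductionModL A M) Qe Qr ha hb hc y hdiv (σ ^ m) hτy e he1 ?_ hy
  intro u hu
  apply he
  have h3 := egr_red_smul h (est_riemann_fbar M) g u
  rw [hgτ, hu] at h3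
  exact h3.symm

/-- **(DENS-p) from (DIV-p)**, in the shape consumed by `s44c_level_of_dens`. -/
theorem s44kd_dens (hp : p.Prime) (hpM : ¬ p ∣ M) (A : ValuationSubring Qb)
    (hA : A.LiesOverPrime p)
    (hdiv : ∀ (y : JZero M) (b : ℕ), ∃ w : JZero M, p ^ b • w = y) :
    ∀ (Qe : JZero M →+ JZero M)
      (Qr : JZeroC (IsLocalRing.ResidueField A) M →+ JZeroC (IsLocalRing.ResidueField A) M),
      (∀ (σ : GQ) (x : JZero M), Qe (σ • x) = σ • Qe x) →
      (∀ x : JZero M, reductionModL A M (Qe x) = Qr (reductionModL A M x)) →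
      (∀ x : JZero M, (∃ n : ℕ, p ^ n • x = 0) → Qe x = 0) →
      ∀ y : JZero M, p • reductionModL A M y = 0 → Qr (reductionModL A M y) = 0 :=
  fun Qe Qr ha hb hc y hy => s44kd_dens_of_div M p hp hpM A hA Qe Qr ha hb hc y (hdiv y) hy

end Fermat.Agent.S44
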