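/-
S44, cell [C2] OLD-k, sub-cell (DIV-n) (helper3): `J₀(N)(Q̄)` IS `n`-DIVISIBLE FOR EVERY `n ≠ 0`.

The `n`-twin of `MW/Div2` (Weil's generic-point argument over `ℂ ⊇ Q̄`): the seams [FIX], [ORB],
[TRANS], [NSP], [AUT-i], [TRD], [DEG], [LINK] of `MW/Div2/Seams.lean` do not mention `2` and are
used by import; only [TORS], [GEN], [DESC] and the assembly are re-proved here with `n` in place of
`2`.

* `s44kd_TorsN K F_ℚ n`   : `Pic⁰(F_K)[n]` is finite;
* `s44kd_W`               : Weil's lemma (twin of `mw_d2g_W2`);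
* `s44kd_gen`             : every class of `Pic⁰(F_K)` fixed by `Aut(K/Q̄)` is divisible by `n`;
* `s44kd_desc`            : divisibility by `n` descends from `K` to `K₀`;
* `s44kd_asm`             : `Pic⁰(F_{K₀})` is `n`-divisible;
* **`s44kd_div`**         : `∀ x : JZero N, ∃ y, n • y = x`;  `s44kd_div_pow`.
Prefix `s44kd_`.
-/
import Fermat.Agent.MW.Div2.DescClosed

set_option autoImplicit false
set_option linter.unusedSectionVars false
set_option linter.unusedVariables false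
set_option linter.style.haveILetI false
set_option synthInstance.maxHeartbeats 400000

noncomputable section

namespace Fermat.Agent.S44

open AlgebraicCurve ModularCurve Fermat.Agent.JT3 Fermat.Agent.FF Fermat.Agent.S24
open Fermat.Agent.MW IntermediateField Polynomial

/-! ### the seams with `n` in place of `2` -/

/-- **[TORS]** the `n`-torsion of `Pic⁰(F_K)` is finite. -/
def s44kd_TorsN (K : Type) [Field K] [Algebra ℚ K]
    (F_ℚ : IntermediateField ℚ (LaurentSeries ℚ)) (n : ℕ) : Prop :=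
  Finite {y : Pic0 K (laurentBaseChange K F_ℚ) // n • y = 0}

/-- **[GEN]** every class fixed by `Aut(K/ℚ̄)` is divisible by `n` in `Pic⁰(F_K)`. -/
def s44kd_GenN (K : Type) [Field K] [Algebra ℚ K]
    (F_ℚ : IntermediateField ℚ (LaurentSeries ℚ)) (n : ℕ) : Prop :=
  ∀ y : Pic0 K (laurentBaseChange K F_ℚ),
    (∀ σ ∈ (mw_d2_cl (∅ : Set K)).fixingSubgroup, σ • y = y) → ∃ z, n • z = y

/-- **[DESC]** divisibility by `n` descends from `K` to `K₀`. -/
def s44kd_DescN (K₀ K : Type) [Field K₀] [Field K] [Algebra K₀ K] [Algebra ℚ K₀] [Algebra ℚ K]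
    (F_ℚ : IntermediateField ℚ (LaurentSeries ℚ))
    (hres : ∀ P₀ : Place K₀ (laurentBaseChange K₀ F_ℚ),
      Function.Surjective (algebraMap K₀ P₀.ResidueField)) (n : ℕ) : Prop :=
  ∀ D₀ : Divisor K₀ (laurentBaseChange K₀ F_ℚ), Divisor.degree D₀ = 0 →
    (∃ (E : Divisor K (laurentBaseChange K F_ℚ)) (f : laurentBaseChange K F_ℚ), f ≠ 0 ∧
      ∀ P : Place K (laurentBaseChange K F_ℚ),
        mw_d2_extDiv (K := K) F_ℚ hres D₀ P = (n : ℤ) * E P + P.ord f) →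
    ∃ (E₀ : Divisor K₀ (laurentBaseChange K₀ F_ℚ)) (f₀ : laurentBaseChange K₀ F_ℚ), f₀ ≠ 0 ∧
      ∀ P₀ : Place K₀ (laurentBaseChange K₀ F_ℚ), D₀ P₀ = (n : ℤ) * E₀ P₀ + P₀.ord f₀

/-! ### Weil's lemma -/

section W

variable {K : Type} [Field K] [Algebra ℚ K] [IsAlgClosed K] [CharZero K]
  {F_ℚ : IntermediateField ℚ (LaurentSeries ℚ)} {x₀ : F_ℚ}

set_option maxHeartbeats 1000000 in
/-- **Weil's lemma.** `η = [E - g∞]` generic (`E = ffg_sum s`); if every `σ ∈ Aut(K/ℚ̄)` fixing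
`ζ` moves `η` by an `n`-torsion class, then `ζ` is generic. -/
theorem s44kd_W (hx : rt_IsSepGen K (mw_d2_bcQ K F_ℚ x₀))
    (hnt : ∃ f : laurentBaseChange K F_ℚ, f ≠ 0 ∧ gd_ordVal F_ℚ f ≠ 0) (g : ℕ) (c : ℤ)
    (hI : ∀ D : Divisor K (laurentBaseChange K F_ℚ),
      Divisor.degree D + 1 - g ≤ (Module.finrank K (riemannRochSpace D) : ℤ))
    (hR : ∀ D : Divisor K (laurentBaseChange K F_ℚ), c ≤ Divisor.degree D →
      (Module.finrank K (riemannRochSpace D) : ℤ) = Divisor.degree D + 1 - g)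
    {n : ℕ} (hT : s44kd_TorsN K F_ℚ n) (hTRD : mw_d2_SeamTRD K) (hFIX : mw_d2_SeamFIX K F_ℚ x₀)
    (hORB : mw_d2_SeamORB K F_ℚ x₀) (hNSP : mw_d2_SeamNSP K F_ℚ x₀)
    (s : Finset (Place K (laurentBaseChange K F_ℚ))) (hs : s.card = g)
    (hgen : mw_d2_IsGenSet F_ℚ x₀ s) (ζ : Pic0 K (laurentBaseChange K F_ℚ))
    (hζ : ∀ σ ∈ (mw_d2_cl (∅ : Set K)).fixingSubgroup, σ • ζ = ζ →
      n • (σ • mw_d2g_class (mw_d2_Pinf F_ℚ hnt) g (ffg_sum s) -
        mw_d2g_class (mw_d2_Pinf F_ℚ hnt) g (ffg_sum s)) = 0) :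
    ∃ s' : Finset (Place K (laurentBaseChange K F_ℚ)), s'.card = g ∧
      mw_d2_IsGenSet F_ℚ x₀ s' ∧ ζ = mw_d2g_class (mw_d2_Pinf F_ℚ hnt) g (ffg_sum s') := by
  classical
  set O := mw_d2_Pinf F_ℚ hnt with hO
  set x := mw_d2_bcQ K F_ℚ x₀ with hxdef
  set E := ffg_sum s with hE
  set η := mw_d2g_class O g E with hη
  have hE0 : 0 ≤ E := ffg_sum_nonneg s
  have hEdeg : Divisor.degree E = g := by rw [hE, ffg_degree_sum hx, hs]
  have hEl : Module.finrank K (riemannRochSpace E) = 1 :=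
    hNSP hx g c hR s hs.le hgen
  obtain ⟨t, ht, hti⟩ := hgen
  -- an effective representative of `ζ`
  obtain ⟨Q, hQ0, hQdeg, hQζ⟩ := mw_d2g_exists_class hx O g hI ζ
  -- the values of its points
  let v : Place K (laurentBaseChange K F_ℚ) → K := fun R =>
    if h : ∃ c : K, mw_d2_IsZero F_ℚ x₀ R c then h.choose else 0
  have hv : ∀ R : Place K (laurentBaseChange K F_ℚ), 0 ≤ R.ord x →
      mw_d2_IsZero F_ℚ x₀ R (v R) := by
    intro R hR0
    have h := mw_d2g_exists_value hx R hR0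
    show mw_d2_IsZero F_ℚ x₀ R (if h : ∃ c : K, mw_d2_IsZero F_ℚ x₀ R c then h.choose else 0)
    rw [dif_pos h]
    exact h.choose_spec
  set supp := Q.support with hsupp
  set np := supp.filter (fun R => 0 ≤ R.ord x) with hnp
  set T := np.image v with hTdef
  set L := mw_d2_cl (T : Set K) with hL
  have hrat : ∀ R ∈ supp, mw_d2_IsRat F_ℚ x₀ L R := by
    intro R hR
    by_cases h0 : 0 ≤ R.ord x
    · right
      refine ⟨v R, ?_, hv R h0⟩
      apply mw_d2g_subset_cl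
      rw [hTdef, Finset.coe_image]
      exact ⟨R, Finset.mem_coe.2 (Finset.mem_filter.2 ⟨hR, h0⟩), rfl⟩
    · left
      exact not_le.mp h0
  -- `Aut(K/L)` fixes `Q`, hence `ζ`
  have hfixQ : ∀ σ ∈ L.fixingSubgroup, arithmeticGalois F_ℚ σ • Q = Q := by
    intro σ hσ
    apply mw_d2g_smul_eq_self
    intro R hR
    exact hFIX hx L R (hrat R hR) σ hσ
  have hfixζ : ∀ σ ∈ L.fixingSubgroup, σ • ζ = ζ := by
    intro σ hσ
    rw [← hQζ, mw_d2g_gal_smul_class hnt σ g Q, hfixQ σ hσ]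
  have hle : L.fixingSubgroup ≤ (mw_d2_cl (∅ : Set K)).fixingSubgroup :=
    mw_d2g_fixing_le (mw_d2g_cl_mono (Set.empty_subset _))
  have htors : ∀ σ ∈ L.fixingSubgroup, n • (σ • η - η) = 0 := fun σ hσ =>
    hζ σ (hle hσ) (hfixζ σ hσ)
  -- the orbit of `η` is finite
  have horbη : (Set.range fun σ : L.fixingSubgroup => (σ : K ≃ₐ[ℚ] K) • η).Finite := by
    have hfin : {z : Pic0 K (laurentBaseChange K F_ℚ) | n • z = 0}.Finite := by
      exact Set.finite_coe_iff.mp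
        (hT : Finite ↥{z : Pic0 K (laurentBaseChange K F_ℚ) | n • z = 0})
    refine (hfin.image (fun z => z + η)).subset ?_
    rintro _ ⟨σ, rfl⟩
    exact ⟨(σ : K ≃ₐ[ℚ] K) • η - η, htors σ σ.2, sub_add_cancel _ _⟩
  -- hence the orbit of the divisor `E`
  have horbE : (Set.range fun σ : L.fixingSubgroup =>
      arithmeticGalois F_ℚ (σ : K ≃ₐ[ℚ] K) • E).Finite := by
    refine mw_d2g_finite_range_of_factor _ _ horbη ?_
    intro a b hab
    have hab' : (a : K ≃ₐ[ℚ] K) • mw_d2g_class O g E = (b : K ≃ₐ[ℚ] K) • mw_d2g_class O g E :=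
      hab
    rw [mw_d2g_gal_smul_class hnt _ g E, mw_d2g_gal_smul_class hnt _ g E] at hab'
    exact mw_d2g_smul_eq_of_class_eq hx O g hE0 hEdeg hEl _ _ hab'
  -- hence the orbits of the points of `s`
  have horbP : ∀ P ∈ s, (Set.range fun σ : L.fixingSubgroup =>
      arithmeticGalois F_ℚ (σ : K ≃ₐ[ℚ] K) • P).Finite := by
    intro P hP
    refine (Finset.finite_toSet (horbE.toFinset.biUnion fun E' => E'.support)).subset ?_
    rintro _ ⟨σ, rfl⟩
    rw [Finset.mem_coe, Finset.mem_biUnion]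
    refine ⟨arithmeticGalois F_ℚ (σ : K ≃ₐ[ℚ] K) • E, ?_, ?_⟩
    · rw [Set.Finite.mem_toFinset]
      exact ⟨σ, rfl⟩
    · rw [Finsupp.mem_support_iff, SemilinearAut.divisor_smul_apply_smul, hE, ffg_sum_apply,
        if_pos hP]
      exact one_ne_zero
  -- hence their values lie in `L`
  have htL : ∀ P ∈ s, t P ∈ L := by
    intro P hP
    rcases hORB hx L P (horbP P hP) with hpole | ⟨c', hc'L, hc'⟩
    · have := mw_d2g_isZero_ord_nonneg (ht P hP)
      omega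
    · rw [← mw_d2g_isZero_unique hc' (ht P hP)]
      exact hc'L
  -- the exchange lemma
  have hsuppcard : (supp.card : ℤ) ≤ g := by
    rw [← hQdeg, rt_degree_eq_sum hx Q supp (Finset.Subset.refl _), Finset.card_eq_sum_ones]
    push_cast
    apply Finset.sum_le_sum
    intro R hR
    have h1 : 0 ≤ Q R := by
      have := (Finsupp.le_def.mp hQ0) R
      simpa using this
    have h2 : Q R ≠ 0 := Finsupp.mem_support_iff.mp hR
    omega
  have hnpcard : np.card ≤ supp.card := Finset.card_filter_le _ _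
  have hTcard : T.card ≤ np.card := Finset.card_image_le
  have hTg : T.card ≤ g := by
    have : (T.card : ℤ) ≤ g := by
      have h1 : (T.card : ℤ) ≤ np.card := by exact_mod_cast hTcard
      have h2 : (np.card : ℤ) ≤ supp.card := by exact_mod_cast hnpcard
      linarith
    exact_mod_cast this
  let e : s ≃ Fin g := Finset.equivFinOfCardEq hs
  have hind : AlgebraicIndependent ℚ (fun i : Fin g => t ((e.symm i : s) : _)) :=
    hti.comp e.symm e.symm.injective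
  obtain ⟨hTeq, hTind⟩ := hTRD g _ hind T hTg (fun i => htL _ (e.symm i).2)
  -- consequences of `#T = g`
  have hnpeq : np.card = g := by
    have h1 : (np.card : ℤ) ≤ supp.card := by exact_mod_cast hnpcard
    have h2 : (g : ℤ) ≤ np.card := by rw [← hTeq]; exact_mod_cast hTcard
    have : (np.card : ℤ) = g := by linarith
    exact_mod_cast this
  have hsuppeq : supp.card = g := by
    have h1 : (np.card : ℤ) ≤ supp.card := by exact_mod_cast hnpcard
    have : (supp.card : ℤ) = g := by rw [hnpeq] at h1; linarith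
    exact_mod_cast this
  have hnpsupp : np = supp :=
    Finset.eq_of_subset_of_card_le (Finset.filter_subset _ _) (by rw [hnpeq, hsuppeq])
  have hvinj : Set.InjOn v (np : Set (Place K (laurentBaseChange K F_ℚ))) :=
    Finset.card_image_iff.mp (by rw [← hTdef, hTeq, hnpeq])
  have hQone : ∀ R ∈ supp, Q R = 1 := by
    have hle1 : ∀ R ∈ supp, (1 : ℤ) ≤ Q R := by
      intro R hR
      have h1 : 0 ≤ Q R := by
        have := (Finsupp.le_def.mp hQ0) R
        simpa using this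
      have h2 : Q R ≠ 0 := Finsupp.mem_support_iff.mp hR
      omega
    have hsum : ∑ R ∈ supp, (1 : ℤ) = ∑ R ∈ supp, Q R := by
      rw [← rt_degree_eq_sum hx Q supp (Finset.Subset.refl _), hQdeg, Finset.sum_const,
        hsuppeq]
      simp
    intro R hR
    exact ((Finset.sum_eq_sum_iff_of_le hle1).mp hsum R hR).symm
  have hQsum : Q = ffg_sum supp := by
    ext w
    rw [ffg_sum_apply]
    by_cases hw : w ∈ supp
    · rw [if_pos hw, hQone w hw]
    · rw [if_neg hw]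
      exact Finsupp.notMem_support_iff.mp hw
  refine ⟨supp, hsuppeq, ⟨v, ?_, ?_⟩, ?_⟩
  · intro P hP
    have hP' : P ∈ np := by rw [hnpsupp]; exact hP
    exact hv P (Finset.mem_filter.mp hP').2
  · have hmem : ∀ P : supp, v (P : _) ∈ T := by
      intro P
      rw [hTdef]
      exact Finset.mem_image.2 ⟨P, by rw [hnpsupp]; exact P.2, rfl⟩
    have hφ : Function.Injective (fun P : supp => (⟨v (P : _), hmem P⟩ : T)) := by
      intro P P' h
      have h1 : v (P : _) = v (P' : _) := congrArg (fun z : T => (z : K)) h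
      apply Subtype.ext
      apply hvinj _ _ h1
      · rw [hnpsupp]; exact P.2
      · rw [hnpsupp]; exact P'.2
    have hcomp := hTind.comp (fun P : supp => (⟨v (P : _), hmem P⟩ : T)) hφ
    exact hcomp
  · rw [← hQsum, hQζ]

end W

/-! ### [GEN] -/

section gen

variable {K : Type} [Field K] [Algebra ℚ K] [IsAlgClosed K] [CharZero K]
  {F_ℚ : IntermediateField ℚ (LaurentSeries ℚ)} {x₀ : F_ℚ}

open Classical in
set_option maxHeartbeats 1000000 in
/-- **[GEN]**: Weil's generic-point argument, for `n`. -/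
theorem s44kd_gen (hx : rt_IsSepGen K (mw_d2_bcQ K F_ℚ x₀))
    (hnt : ∃ f : laurentBaseChange K F_ℚ, f ≠ 0 ∧ gd_ordVal F_ℚ f ≠ 0)
    {n : ℕ} (hT : s44kd_TorsN K F_ℚ n) (hAi : mw_d2_SeamAUTi K) (hTRD : mw_d2_SeamTRD K)
    (hFIX : mw_d2_SeamFIX K F_ℚ x₀) (hORB : mw_d2_SeamORB K F_ℚ x₀)
    (hTRANS : mw_d2_SeamTRANS K F_ℚ x₀) (hNSP : mw_d2_SeamNSP K F_ℚ x₀) :
    s44kd_GenN K F_ℚ n := by
  intro y hy
  obtain ⟨g, c, hI, hR⟩ := mw_d2g_riemann_data hx
  obtain ⟨s₀, hs₀, hgen₀⟩ := mw_d2g_exists_genSet hx hAi g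
  set O := mw_d2_Pinf F_ℚ hnt with hO
  set η₀ := mw_d2g_class O g (ffg_sum s₀) with hη₀
  have hcomm : ∀ (σ : K ≃ₐ[ℚ] K) (z : Pic0 K (laurentBaseChange K F_ℚ)),
      σ • (n • z) = n • (σ • z) := fun σ z =>
    map_nsmul (DistribSMul.toAddMonoidHom (Pic0 K (laurentBaseChange K F_ℚ)) σ) n z
  -- `nη₀` is generic
  obtain ⟨s₁, hs₁, hgen₁, h₁⟩ := s44kd_W hx hnt g c hI hR hT hTRD hFIX hORB hNSP s₀ hs₀ hgen₀
    (n • η₀) (by
      intro σ _ hσ
      rw [nsmul_sub, ← hcomm, hσ, sub_self])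
  -- `y - η₀` is generic
  obtain ⟨s₂, hs₂, hgen₂, h₂⟩ := s44kd_W hx hnt g c hI hR hT hTRD hFIX hORB hNSP s₀ hs₀ hgen₀
    (y - η₀) (by
      intro σ hσ hσy
      rw [smul_sub, hy σ hσ, sub_right_inj] at hσy
      rw [hσy, sub_self, nsmul_zero])
  -- conjugacy
  have hconj : ∀ (s s' : Finset (Place K (laurentBaseChange K F_ℚ))) (σ : K ≃ₐ[ℚ] K),
      s.image (fun P => arithmeticGalois F_ℚ σ • P) = s' →
      σ • mw_d2g_class O g (ffg_sum s) = mw_d2g_class O g (ffg_sum s') := by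
    intro s s' σ h
    rw [mw_d2g_gal_smul_class hnt σ g, mw_d2g_smul_ffg_sum, h]
  obtain ⟨σ₂, hσ₂⟩ := mw_d2g_trans_sets hx hFIX hTRANS g s₁ s₂ hs₁ hs₂ hgen₁ hgen₂
  obtain ⟨σ₀, hσ₀⟩ := mw_d2g_trans_sets hx hFIX hTRANS g s₁ s₀ hs₁ hs₀ hgen₁ hgen₀
  have e₂ : y - η₀ = n • (σ₂ • η₀) := by
    rw [h₂, ← hconj s₁ s₂ σ₂ hσ₂, ← h₁, hcomm]
  have e₀ : η₀ = n • (σ₀ • η₀) := by
    conv_lhs => rw [hη₀, ← hconj s₁ s₀ σ₀ hσ₀, ← h₁, hcomm]
  refine ⟨σ₂ • η₀ + σ₀ • η₀, ?_⟩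
  rw [nsmul_add, ← e₂, ← e₀, sub_add_cancel]

end gen

/-! ### [DESC] -/

section descgeneric

universe u v
variable {K : Type u} {F : Type v} [Field K] [Field F] [Algebra K F] [IsAlgClosed K]
  {x : F} (hx : rt_IsSepGen K x)

include hx in
/-- a non-special effective divisor `M` whose `n`-fold class is fixed by a family of semilinear
automorphisms fixing `O` has a finite orbit under this family (`Pic⁰[n]` finite) -/
theorem s44kd_orbit_divisor {Γ : Type*} (act : Γ → SemilinearAut K F) (O : Place K F)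
    (hO : ∀ γ, act γ • O = O) (d : ℕ) {M : Divisor K F} (hM0 : 0 ≤ M)
    (hMdeg : Divisor.degree M = d) (hMl : Module.finrank K (riemannRochSpace M) = 1)
    {n : ℕ} (hT : Finite {y : Pic0 K F // n • y = 0})
    (hfix : ∀ γ, act γ • (n • mw_d2g_class O d M) = n • mw_d2g_class O d M) :
    (Set.range fun γ => act γ • M).Finite := by
  set z := mw_d2g_class O d M with hz
  -- the orbit of the class is finite
  have h2 : ∀ γ, n • (act γ • z - z) = 0 := by
    intro γ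
    have e : act γ • (n • z) = n • (act γ • z) :=
      map_nsmul (DistribSMul.toAddMonoidHom (Pic0 K F) (act γ)) n z
    rw [nsmul_sub, ← e, hfix γ, sub_self]
  have hfin : (Set.range fun γ => act γ • z).Finite := by
    refine (Set.finite_range fun y : {y : Pic0 K F // n • y = 0} => (y : Pic0 K F) + z).subset ?_
    rintro _ ⟨γ, rfl⟩
    exact ⟨⟨act γ • z - z, h2 γ⟩, sub_add_cancel _ _⟩
  refine mw_d2g_finite_range_of_factor (fun γ => act γ • z) (fun γ => act γ • M) hfin ?_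
  intro a b hab
  rw [hz, mw_d2g_smul_class (act a) O (hO a) d M, mw_d2g_smul_class (act b) O (hO b) d M] at hab
  exact mw_d2g_smul_eq_of_class_eq hx O d hM0 hMdeg hMl (act a) (act b) hab

end descgeneric

section descmain

variable {K₀ K : Type} [Field K₀] [Field K] [Algebra K₀ K] [Algebra ℚ K₀] [Algebra ℚ K]
  [IsAlgClosed K₀] [IsAlgClosed K] [CharZero K₀] [CharZero K]
  (F_ℚ : IntermediateField ℚ (LaurentSeries ℚ))
  (hres : ∀ P₀ : Place K₀ (laurentBaseChange K₀ F_ℚ),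
    Function.Surjective (algebraMap K₀ P₀.ResidueField))
  {x₀ : F_ℚ} (hx₀ : rt_IsSepGen K₀ (mw_d2_bcQ K₀ F_ℚ x₀))
  (hx : rt_IsSepGen K (mw_d2_bcQ K F_ℚ x₀))

attribute [local instance] mw_d2d_isScalarTower

local notation "F₀" => laurentBaseChange K₀ F_ℚ
local notation "FK" => laurentBaseChange K F_ℚ

set_option maxHeartbeats 1000000 in
include hx₀ hx in
/-- **[DESC]** for `n`: divisibility by `n` descends from `K` to `K₀` -/
theorem s44kd_desc (hORB : mw_d2_SeamORB K F_ℚ x₀) {n : ℕ} (hn : n ≠ 0)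
    (hTORS : s44kd_TorsN K F_ℚ n) : s44kd_DescN K₀ K F_ℚ hres n := by
  classical
  rintro D₀ hD₀ ⟨E, f, hf0, hEf⟩
  set L : IntermediateField ℚ K := mw_d2d_L K₀ K with hL
  let act : L.fixingSubgroup → SemilinearAut K FK := fun γ =>
    arithmeticGalois F_ℚ (γ : K ≃ₐ[ℚ] K)
  have hγ : ∀ (γ : L.fixingSubgroup) (c₀ : K₀),
      (γ : K ≃ₐ[ℚ] K) (algebraMap K₀ K c₀) = algebraMap K₀ K c₀ := fun γ c₀ =>
    mw_d2d_fixing _ γ.2 c₀
  -- the divisor identity and the degrees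
  have hdiv : mw_d2_extDiv (K := K) F_ℚ hres D₀ = n • E + rt_div hx f := by
    ext P
    rw [hEf P, Finsupp.add_apply, Finsupp.smul_apply, rt_div_apply, nsmul_eq_mul]
  have hdegext : Divisor.degree (mw_d2_extDiv (K := K) F_ℚ hres D₀) = 0 :=
    (mw_d2e_degree_extDiv F_ℚ hres hx₀ hx D₀).trans hD₀
  have hE0 : Divisor.degree E = 0 := by
    have h1 := congrArg Divisor.degree hdiv
    rw [hdegext, map_add, map_nsmul, rt_degree_div, add_zero, nsmul_eq_mul] at h1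
    have hn' : (n : ℤ) ≠ 0 := by exact_mod_cast hn
    rcases mul_eq_zero.mp h1.symm with h | h
    · exact absurd h hn'
    · exact h
  -- a base place
  obtain ⟨O₀, -⟩ := ffg_exists_zero hx₀ (0 : K₀)
  set O : Place K FK := mw_d2_ext (K := K) F_ℚ hres O₀ with hOdef
  have hO : ∀ γ, act γ • O = O := fun γ => mw_d2e_smul_ext F_ℚ hres hx₀ hx _ (hγ γ) O₀
  -- the minimal representative
  obtain ⟨M, h, hh0, hM0, hMO, hMl, hMeq⟩ := mw_mr_exists hx O E hE0
  obtain ⟨d, hd⟩ := Int.eq_ofNat_of_zero_le (rt_degree_nonneg hx hM0)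
  rw [hd] at hMeq
  have hdegM : Divisor.degree (M - Finsupp.single O (d : ℤ)) = 0 := mw_d2g_degree_sub hx O d hd
  have hcls : mw_d2g_class O d M = Pic0.mk ⟨M - Finsupp.single O (d : ℤ), hdegM⟩ :=
    mw_d2g_class_eq O d M hdegM
  set u : FK := f * (h⁻¹) ^ n with hu
  have hu0 : u ≠ 0 := mul_ne_zero hf0 (pow_ne_zero _ (inv_ne_zero hh0))
  -- `extDiv D₀ - n (M - d O) = div u`
  have hkey : ∀ P : Place K FK, (mw_d2_extDiv (K := K) F_ℚ hres D₀ -
      n • (M - Finsupp.single O (d : ℤ))) P = P.ord u := by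
    intro P
    rw [hMeq, hdiv, hu, P.ord_mul hf0 (pow_ne_zero _ (inv_ne_zero hh0)), rt_ord_pow, P.ord_inv]
    simp only [Finsupp.sub_apply, Finsupp.add_apply, Finsupp.smul_apply, rt_div_apply,
      nsmul_eq_mul]
    push_cast
    ring
  -- the `n`-fold class is the class of the extended divisor
  have h2cls : n • mw_d2g_class O d M =
      mw_d2_cls (mw_d2_extDiv (K := K) F_ℚ hres D₀) hdegext := by
    rw [hcls]
    have h2deg : Divisor.degree (n • (M - Finsupp.single O (d : ℤ))) = 0 := by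
      rw [map_nsmul, hdegM, smul_zero]
    have h1 : n • Pic0.mk (⟨M - Finsupp.single O (d : ℤ), hdegM⟩ :
        Divisor.degZero (K := K) (F := FK)) =
        Pic0.mk ⟨n • (M - Finsupp.single O (d : ℤ)), h2deg⟩ := by
      unfold Pic0.mk
      exact (QuotientAddGroup.mk_nsmul _ _ n).symm
    rw [h1]
    unfold mw_d2_cls
    exact (mw_d2g_mk_eq_mk_iff h2deg hdegext).2 ⟨u, hu0, hkey⟩
  have hfix : ∀ γ, act γ • (n • mw_d2g_class O d M) = n • mw_d2g_class O d M := by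
    intro γ
    rw [h2cls, mw_d2_cls, SemilinearAut.pic0_smul_mk]
    congr 1
    apply Subtype.ext
    rw [SemilinearAut.coe_degZeroSMulHom]
    exact mw_d2e_smul_extDiv F_ℚ hres hx₀ hx _ (hγ γ) D₀
  have hfinM := s44kd_orbit_divisor hx act O hO d hM0 hd hMl hTORS hfix
  -- the points of `M` are extended places
  have hMrange : ∀ Q, M Q ≠ 0 → Q ∈ Set.range (mw_d2_ext (K := K) F_ℚ hres) := by
    intro Q hQ
    have hfinQ := mw_d2d_orbit_point act hfinM hQ
    exact mw_d2d_isRat_range F_ℚ hres hx₀ hx (hORB hx L Q hfinQ)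
  obtain ⟨M₀, hM₀⟩ := mw_d2e_exists_extDiv F_ℚ hres M hMrange
  -- the new divisor
  set E₀ : Divisor K₀ F₀ := M₀ - Finsupp.single O₀ (d : ℤ) with hE₀
  have hextE₀ : mw_d2_extDiv (K := K) F_ℚ hres E₀ = M - Finsupp.single O (d : ℤ) := by
    rw [hE₀, mw_d2e_extDiv_sub, hM₀, mw_d2e_extDiv_single]
  have hD' : ∀ P : Place K FK,
      mw_d2_extDiv (K := K) F_ℚ hres (D₀ - n • E₀) P = P.ord u := by
    intro P
    rw [← hkey P, mw_d2e_extDiv_sub, ← natCast_zsmul, mw_d2e_extDiv_zsmul, hextE₀, natCast_zsmul]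
  -- normalisation
  set c : K := gd_lead F_ℚ u with hc
  have hc0 : c ≠ 0 := gd_lead_ne_zero F_ℚ u hu0
  set u' : FK := algebraMap K FK c⁻¹ * u with hu'
  have hci0 : algebraMap K FK c⁻¹ ≠ 0 := by
    rw [Ne, map_eq_zero]
    exact inv_ne_zero hc0
  have hu'0 : u' ≠ 0 := mul_ne_zero hci0 hu0
  have hlead : gd_lead F_ℚ u' = 1 := by
    rw [hu', gd_lead_smul, ← hc, inv_mul_cancel₀ hc0]
  have hD'' : ∀ P : Place K FK,
      mw_d2_extDiv (K := K) F_ℚ hres (D₀ - n • E₀) P = P.ord u' := by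
    intro P
    rw [hD' P, hu', P.ord_mul hci0 hu0, hw_ord_algebraMap, zero_add]
  -- `u'` is fixed by `Aut(K/K₀)`
  have hfixu : ∀ τ : K ≃ₐ[K₀] K, arithmeticGalois F_ℚ (gd_toRat τ) • u' = u' := by
    intro τ
    apply mw_d2d_fixed_of_div F_ℚ hx hu'0 hlead
    intro P
    have hτ : ∀ c₀ : K₀, gd_toRat τ (algebraMap K₀ K c₀) = algebraMap K₀ K c₀ := fun c₀ =>
      τ.commutes c₀
    set g := arithmeticGalois F_ℚ (gd_toRat τ) with hg
    have h1 := SemilinearAut.ord_smul g (g⁻¹ • P) u'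
    rw [smul_inv_smul] at h1
    rw [h1, ← hD'' (g⁻¹ • P), ← SemilinearAut.divisor_smul_apply,
      mw_d2e_smul_extDiv F_ℚ hres hx₀ hx _ hτ, hD'' P]
  -- descent of `u'`
  have horb : (Set.range fun τ : K ≃ₐ[K₀] K =>
      coeffMap (τ : K →+* K) (u' : LaurentSeries K)).Finite := by
    refine (Set.finite_singleton (u' : LaurentSeries K)).subset ?_
    rintro _ ⟨τ, rfl⟩
    have := congrArg (fun z : FK => (z : LaurentSeries K)) (hfixu τ)
    exact this
  obtain ⟨s₀, hs₀⟩ := gd_exists_coeffMap_eq_of_finite_orbit horb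
  have hs₀mem : s₀ ∈ laurentBaseChange K₀ F_ℚ := by
    apply gd_mem_of_coeffMap_mem (K := K) F_ℚ
    rw [hs₀]
    exact u'.2
  set f₀ : F₀ := ⟨s₀, hs₀mem⟩ with hf₀
  have hbc : mw_d2_bc (K := K) F_ℚ f₀ = u' := Subtype.ext hs₀
  have hf₀0 : f₀ ≠ 0 := by
    intro h0
    apply hu'0
    rw [← hbc, h0, map_zero]
  refine ⟨E₀, f₀, hf₀0, fun P₀ => ?_⟩
  have h1 := hD'' (mw_d2_ext (K := K) F_ℚ hres P₀)
  rw [mw_d2e_extDiv_ext, ← hbc, mw_d2_ext_ord, Finsupp.sub_apply, Finsupp.smul_apply,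
    nsmul_eq_mul] at h1
  push_cast at h1
  linarith

end descmain

/-! ### the assembly -/

section asm

variable {K₀ K : Type} [Field K₀] [Field K] [Algebra K₀ K] [Algebra ℚ K₀] [Algebra ℚ K]
  (F_ℚ : IntermediateField ℚ (LaurentSeries ℚ))
  (hres : ∀ P₀ : Place K₀ (laurentBaseChange K₀ F_ℚ),
    Function.Surjective (algebraMap K₀ P₀.ResidueField))

/-- **the assembly**: `Pic⁰(F_{K₀})` is `n`-divisible. -/
theorem s44kd_asm [IsAlgClosed K₀] {x' : laurentBaseChange K₀ F_ℚ}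
    (hx' : rt_IsSepGen K₀ x') {n : ℕ} (hn : n ≠ 0)
    (hDEG : mw_d2_SeamDEG K₀ K F_ℚ hres) (hLINK : mw_d2_SeamLINK K₀ K F_ℚ hres)
    (hDESC : s44kd_DescN K₀ K F_ℚ hres n) (hGEN : s44kd_GenN K F_ℚ n)
    (x : Pic0 K₀ (laurentBaseChange K₀ F_ℚ)) : ∃ y : Pic0 K₀ (laurentBaseChange K₀ F_ℚ),
      n • y = x := by
  obtain ⟨⟨D₀, hD₀⟩, rfl⟩ := Pic0.mk_surjective x
  have hD₀' : Divisor.degree D₀ = 0 := hD₀
  have hn' : (n : ℤ) ≠ 0 := by exact_mod_cast hn
  have hdeg : Divisor.degree (mw_d2_extDiv (K := K) F_ℚ hres D₀) = 0 := (hDEG D₀).trans hD₀'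
  obtain ⟨z, hz⟩ := hGEN _ (hLINK D₀ hdeg)
  obtain ⟨⟨E, hE⟩, rfl⟩ := Pic0.mk_surjective z
  have hE' : Divisor.degree E = 0 := hE
  have h2E : Divisor.degree (n • E) = 0 := by rw [map_nsmul, hE', smul_zero]
  have h1 : n • Pic0.mk (⟨E, hE⟩ : Divisor.degZero (K := K) (F := laurentBaseChange K F_ℚ))
      = Pic0.mk ⟨n • E, h2E⟩ := by
    unfold Pic0.mk
    exact (QuotientAddGroup.mk_nsmul _ _ n).symm
  rw [h1] at hz
  unfold mw_d2_cls at hz
  obtain ⟨f, hf0, hf⟩ := (mw_d2g_mk_eq_mk_iff h2E hdeg).1 hz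
  obtain ⟨E₀, f₀, hf₀0, hE₀⟩ := hDESC D₀ hD₀' ⟨E, f, hf0, fun P => by
    have := hf P
    rw [Finsupp.sub_apply, Finsupp.smul_apply, nsmul_eq_mul] at this
    linarith⟩
  have hDe : D₀ = n • E₀ + rt_div hx' f₀ := by
    ext P₀
    rw [Finsupp.add_apply, Finsupp.smul_apply, rt_div_apply, nsmul_eq_mul, hE₀ P₀]
  have hE₀deg : Divisor.degree E₀ = 0 := by
    have := congrArg Divisor.degree hDe
    rw [map_add, map_nsmul, rt_degree_div, add_zero, hD₀', nsmul_eq_mul] at this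
    rcases mul_eq_zero.mp this.symm with h | h
    · exact absurd h hn'
    · exact h
  have h2E₀ : Divisor.degree (n • E₀) = 0 := by rw [map_nsmul, hE₀deg, smul_zero]
  refine ⟨Pic0.mk ⟨E₀, hE₀deg⟩, ?_⟩
  have h2 : n • Pic0.mk (⟨E₀, hE₀deg⟩ :
      Divisor.degZero (K := K₀) (F := laurentBaseChange K₀ F_ℚ)) = Pic0.mk ⟨n • E₀, h2E₀⟩ := by
    unfold Pic0.mk
    exact (QuotientAddGroup.mk_nsmul _ _ n).symm
  rw [h2]
  refine (mw_d2g_mk_eq_mk_iff h2E₀ hD₀').2 ⟨f₀, hf₀0, fun P₀ => ?_⟩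
  rw [Finsupp.sub_apply, Finsupp.smul_apply, nsmul_eq_mul, hE₀ P₀]
  ring

end asm

/-! ### the instance `Q̄ ⊆ ℂ`, `F_ℚ = modularFunctionFieldFull N` -/

section inst

open Fermat.Agent.S24.Br

variable (N : ℕ) [NeZero N]

/-- **[TORS]** for `n`: `Pic⁰(F_ℂ)[n]` is finite. -/
theorem s44kd_tors {n : ℕ} (hn : n ≠ 0) : s44kd_TorsN ℂ (modularFunctionFieldFull N) n := by
  obtain ⟨T, -, hT⟩ := gw_fin (gc_ctx_complete N) (gc_ctx_rational N) (n := n) hn
  exact mw_d2tors_finite (gc_isSepGen_jF N) hn T (fun f hf hdiv => hT f ⟨hf, hdiv⟩)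

/-- **[GEN]** for `n` over `ℂ`. -/
theorem s44kd_gen_inst {n : ℕ} (hn : n ≠ 0) : s44kd_GenN ℂ (modularFunctionFieldFull N) n :=
  s44kd_gen (x₀ := mw_d2asm_x0 N) (mw_d2asm_isSepGen_C N) (gd_nontrivial N) (s44kd_tors N hn)
    mw_d2a_autI (mw_d2a_trd ℂ) (mw_d2r_fix (modularFunctionFieldFull N) (mw_d2asm_x0 N))
    (mw_d2r_orb (modularFunctionFieldFull N) (mw_d2asm_x0 N))
    (mw_d2t_trans_closed ℂ (modularFunctionFieldFull N) (mw_d2asm_x0 N))
    (mw_d2n_nsp (modularFunctionFieldFull N) (mw_d2asm_x0 N))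

/-- **[DESC]** for `n` at `Q̄ ⊆ ℂ`. -/
theorem s44kd_desc_inst {n : ℕ} (hn : n ≠ 0) :
    s44kd_DescN (AlgebraicClosure ℚ) ℂ (modularFunctionFieldFull N) (gd_res_bar N) n :=
  s44kd_desc (modularFunctionFieldFull N) (gd_res_bar N) (mw_d2asm_isSepGen_bar N)
    (mw_d2asm_isSepGen_C N) (mw_d2r_orb (modularFunctionFieldFull N) (mw_d2asm_x0 N)) hn
    (s44kd_tors N hn)

/-- **(DIV-n)**: `J₀(N)(Q̄)` is `n`-divisible for every `n ≠ 0`. -/
theorem s44kd_div {n : ℕ} (hn : n ≠ 0) (x : JZero N) : ∃ y : JZero N, n • y = x :=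
  s44kd_asm (modularFunctionFieldFull N) (gd_res_bar N) (rt_isSepGen_jBar N) hn
    (mw_d2d_deg_inst N) (mw_d2d_link_inst N) (s44kd_desc_inst N hn) (s44kd_gen_inst N hn) x

/-- `J₀(N)(Q̄)` is `p^b`-divisible. -/
theorem s44kd_div_pow {p : ℕ} (hp : p ≠ 0) (b : ℕ) (x : JZero N) :
    ∃ y : JZero N, p ^ b • y = x :=
  s44kd_div N (pow_ne_zero b hp) x

end inst

end Fermat.Agent.S44
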