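/-
S44, cell [C2] OLD-k: **(DENS-p), unconditional** (helper8) = `s44kd_dens` (OldK/Dens.lean) fed with
helper3's (DIV-n) `s44kd_div_pow` (OldK/DivN.lean).  Shape = the hypothesis `hdens` of helper1's
`s44c_level_of_dens` with `V := JZeroC k M`, `red := reductionModL A M`.
-/
import Fermat.Agent.S44.OldK.Dens
import Fermat.Agent.S44.OldK.DivN

set_option autoImplicit false

namespace Fermat.Agent.S44

open ModularCurve AlgebraicCurve

/-- **(DENS-p).** `A` over `p ∤ M`; `(Qe, Qr)` a pair of endomorphisms of `J₀(M)(ℚ̄)` and of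
`Pic⁰(F̃_M / k)` with (a) `Qe` Galois-equivariant, (b) `red ∘ Qe = Qr ∘ red`, (c) `Qe` kills the
`p`-power torsion.  Then `Qr` kills `red y` whenever `p • red y = 0`. -/
theorem s44kd_dens_main (M p : ℕ) [NeZero M] (hp : p.Prime) (hpM : ¬ p ∣ M)
    (A : ValuationSubring (AlgebraicClosure ℚ)) (hA : A.LiesOverPrime p) :
    ∀ (Qe : JZero M →+ JZero M)
      (Qr : JZeroC (IsLocalRing.ResidueField A) M →+ JZeroC (IsLocalRing.ResidueField A) M),
      (∀ (σ : AlgebraicClosure ℚ ≃ₐ[ℚ] AlgebraicClosure ℚ) (x : JZero M),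
        Qe (σ • x) = σ • Qe x) →
      (∀ x : JZero M, reductionModL A M (Qe x) = Qr (reductionModL A M x)) →
      (∀ x : JZero M, (∃ n : ℕ, p ^ n • x = 0) → Qe x = 0) →
      ∀ y : JZero M, p • reductionModL A M y = 0 → Qr (reductionModL A M y) = 0 :=
  s44kd_dens M p hp hpM A hA (fun y b => s44kd_div_pow M hp.ne_zero b y)

end Fermat.Agent.S44
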