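/-
S44, cell [C2] OLD-k, route (C), item (k2b) (helper15; prefix `s44k2_`): THE REDUCTION MAP
`reductionModL A N` (`A` over `ℓ ∤ N`) INTERTWINES `T_{l'}` (`l' ∤ N ℓ`) WITH THE HECKE
CORRESPONDENCE `T̃_{l'} = α̃_* β̃^*` OF THE SPECIAL FIBRE.  Corollary of the Mazur node [MZ-RH]
(`mzrh_red_hecke_of_push` + `mzrh_push`).

* `s44k2_TC k N l' : JZeroC k N →+ JZeroC k N` : the (total) Hecke operator of the special fibre;
  `s44k2_TC_eq` : it is `Pic0.correspondence (mzrh_beC k N l') (mzrh_alC k N l') …`;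
* **`s44k2_red_hecke`** : `red (T_{l'} x) = T̃_{l'} (red x)`;
* `s44k2_red_eigen`, `s44k2_exists_eigen_lift` : consequences used by [C2].
-/
import Mathlib
import Fermat.Agent.MZ.RH.PushFinal
import Fermat.Agent.S44.OldK.RedSurj

set_option autoImplicit false
set_option linter.unusedSectionVars false
set_option linter.style.haveILetI false
set_option synthInstance.maxHeartbeats 400000
set_option maxHeartbeats 1000000

noncomputable section

namespace Fermat.Agent.S44

open ModularCurve AlgebraicCurve HahnSeries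
open Fermat.Agent.JT3 Fermat.Agent.S24 Fermat.Agent.MZ

local notation "Qb" => AlgebraicClosure ℚ

open Classical in
/-- the Hecke operator `T̃_{l'} = α̃_* β̃^*` on `Pic⁰` of the special fibre (total: `0` if the inputs
fail) -/
def s44k2_TC (k : Type*) [Field k] (N l' : ℕ) [NeZero N] [NeZero l'] :
    JZeroC k N →+ JZeroC k N :=
  if h : mzrh_HeckeInputsC k N l' then
    haveI := h.snd.snd.fst
    Pic0.correspondence (mzrh_beC k N l') (mzrh_alC k N l') h.snd.fst h.fst
      h.snd.snd.snd.snd.1 h.snd.snd.snd.fst h.snd.snd.snd.snd.2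
  else 0

theorem s44k2_TC_eq {k : Type*} [Field k] {N l' : ℕ} [NeZero N] [NeZero l']
    (hαC : (mzrh_alC k N l').toRingHom.IsIntegral)
    (hβC : (mzrh_beC k N l').toRingHom.IsIntegral)
    [HasPrincipalDivisors k (modularFunctionFieldFullC k (N * l'))]
    (hFIC : FundamentalIdentityAlong k (mzrh_beC k N l') hβC)
    (hfinC : FiniteAlong k (mzrh_alC k N l'))
    (hNC : NormFormulaAlong k (mzrh_alC k N l') hfinC) :
    s44k2_TC k N l' =
      Pic0.correspondence (mzrh_beC k N l') (mzrh_alC k N l') hβC hαC hFIC hfinC hNC := by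
  have h : mzrh_HeckeInputsC k N l' := ⟨hαC, hβC, inferInstance, hfinC, hFIC, hNC⟩
  rw [s44k2_TC, dif_pos h]

variable (N ℓ : ℕ) [NeZero N]

/-- **(k2b)**: `red_A ∘ T_{l'} = T̃_{l'} ∘ red_A` on `J₀(N)(ℚ̄)`, for `A` over `ℓ ∤ N` and a prime
`l' ∤ N`, `l' ≠ ℓ`. -/
theorem s44k2_red_hecke (hℓ : ℓ.Prime) (hℓN : ¬ ℓ ∣ N) (A : ValuationSubring Qb)
    (hA : A.LiesOverPrime ℓ) (l' : Nat.Primes) (hl'N : ¬ (l' : ℕ) ∣ N) (hne : (l' : ℕ) ≠ ℓ)
    (x : JZero N) :
    reductionModL A N (heckeOperatorBar N l' x) =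
      (haveI : NeZero (l' : ℕ) := ⟨l'.2.ne_zero⟩
       s44k2_TC (IsLocalRing.ResidueField A) N l') (reductionModL A N x) := by
  haveI : NeZero (l' : ℕ) := ⟨l'.2.ne_zero⟩
  haveI : Fact ℓ.Prime := ⟨hℓ⟩
  have hℓl : ¬ ℓ ∣ (l' : ℕ) := fun hd =>
    hne ((Nat.prime_dvd_prime_iff_eq hℓ l'.2).mp hd).symm
  have hℓM : ¬ ℓ ∣ N * (l' : ℕ) := mzrh_not_dvd_mul N l' hℓN hℓl
  have h : ReductionInputsModL A N := rpw_nodeE N ℓ hℓ hℓN A hA
  have h' : ReductionInputsModL A (N * (l' : ℕ)) := rpw_nodeE (N * l') ℓ hℓ hℓM A hA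
  haveI := jcr_charP A hA
  haveI := jcr_isAlgClosed A
  have hC : mzrh_HeckeInputsC (IsLocalRing.ResidueField A) N l' :=
    mzrh_heckeInputsC N l' (jcr_rho A hA) hℓN hℓl
  have hdegC : ∀ w : Place (IsLocalRing.ResidueField A)
      (modularFunctionFieldFullC (IsLocalRing.ResidueField A) N), w.deg = 1 :=
    rpg_deg_eq_one_of_funField (rpm_funFieldRed A N hℓN hA)
  have e : heckeOperatorBar N l' x
      = heckePic0Bar (hib_alphaIntegral N l') (hib_betaIntegral N l')
          (hib_fundamentalIdentityAlong_beta N l') (hib_finiteAlong_alpha N l')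
          (hib_normFormulaAlong_alpha N l') x := by
    show heckeOperatorAlong Qb N l' x = _
    rw [hib_heckeOperatorAlong_eq]
  obtain ⟨hαC, hβC, hPC, hfinC, hFIC, hNC⟩ := hC
  haveI := hPC
  rw [e, s44k2_TC_eq hαC hβC hFIC hfinC hNC]
  exact mzrh_red_hecke_of_push h h' (est_riemann_fbar N) (hib_alphaIntegral N l')
    (hib_betaIntegral N l') (hib_fundamentalIdentityAlong_beta N l') (hib_finiteAlong_alpha N l')
    (hib_normFormulaAlong_alpha N l') hαC hβC hFIC hfinC hNC hdegC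
    (mzrh_push N l' ℓ hℓ l'.2 hℓN hl'N hne A hA h h' (hib_alphaIntegral N l') hαC) x

end Fermat.Agent.S44
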