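/-
S44, cell [C2] OLD-k, THE LEVEL-`M` HALF AS ONE THEOREM (helper15; prefix `s44k2_`).

`A` a valuation subring of `ℚ̄` over `p = P.p ∤ M`, `kA` its residue field,
`T̃_ℓ := s44k2_TCp kA M ℓ = Pic0.correspondence (mzrh_beC kA M ℓ) (mzrh_alC kA M ℓ) …` the Hecke
correspondence on `Pic⁰` of the special fibre `F̃_M / kA` of level `M`.

**`s44k2_level_of_delta`** : a nonzero class `δ ∈ Pic⁰(F̃_M / kA)[p]` with `T̃_ℓ δ = a_ℓ(W) δ` for the
good primes `ℓ ∤ M p` gives `P.ModularRepOfLevel M`.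

Assembly of: (k2a) `s44k2_red_surj`, (k2b) `s44k2_red_hecke` (helper15), (DENS-p) `s44kd_dens_main`
(helper8, design helper3; (DIV-n) `s44kd_div` helper3), (CHAR-N) `s44c_level_of_dens` (helper1).
-/
import Mathlib
import Fermat.Agent.S44.OldK.RedHecke
import Fermat.Agent.S44.OldK.DensMain
import Fermat.Agent.S44.Old0.Dens

set_option autoImplicit false
set_option linter.unusedSectionVars false
set_option linter.style.haveILetI false
set_option synthInstance.maxHeartbeats 400000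
set_option maxHeartbeats 1000000

noncomputable section

namespace Fermat.Agent.S44

open ModularCurve AlgebraicCurve
open Fermat.Agent.JT3 Fermat.Agent.S24 Fermat.Agent.MZ

local notation "Qb" => AlgebraicClosure ℚ

/-- the Hecke operator `T̃_ℓ` of the special fibre of level `M`, indexed by `Nat.Primes` -/
def s44k2_TCp (k : Type*) [Field k] (M : ℕ) [NeZero M] (ℓ : Nat.Primes) :
    JZeroC k M →+ JZeroC k M :=
  haveI : NeZero (ℓ : ℕ) := ⟨ℓ.2.ne_zero⟩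
  s44k2_TC k M ℓ

theorem s44k2_TCp_eq (k : Type*) [Field k] (M : ℕ) [NeZero M] (ℓ : Nat.Primes) :
    s44k2_TCp k M ℓ = (haveI : NeZero (ℓ : ℕ) := ⟨ℓ.2.ne_zero⟩; s44k2_TC k M ℓ) := rfl

/-- (k2b) in the `Nat.Primes`-indexed form -/
theorem s44k2_red_heckep (M p : ℕ) [NeZero M] (hp : p.Prime) (hpM : ¬ p ∣ M)
    (A : ValuationSubring Qb) (hA : A.LiesOverPrime p) (ℓ : Nat.Primes) (hℓM : ¬ (ℓ : ℕ) ∣ M)
    (hℓp : (ℓ : ℕ) ≠ p) (x : JZero M) :
    reductionModL A M (heckeOperatorBar M ℓ x) =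
      s44k2_TCp (IsLocalRing.ResidueField A) M ℓ (reductionModL A M x) :=
  s44k2_red_hecke M p hp hpM A hA ℓ hℓM hℓp x

/-- **[C2], the level-`M` half**: a nonzero `T̃_ℓ`-eigenclass of `Pic⁰(F̃_M / kA)[p]` with the
eigenvalues `a_ℓ(W)` gives residual modularity of level `M`. -/
theorem s44k2_level_of_delta (P : FreyPackage) (M : ℕ) [NeZero M] (hpM : ¬ P.p ∣ M)
    (W : WeierstrassCurve ℤ) (hW : W.IsIntegralModelOf P.freyCurve)
    (A : ValuationSubring Qb) (hA : A.LiesOverPrime P.p)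
    (δ : JZeroC (IsLocalRing.ResidueField A) M) (hδ0 : δ ≠ 0) (hpδ : P.p • δ = 0)
    (hδ : ∀ ℓ : Nat.Primes, W.IsGoodPrimeFor ℓ → ¬ (ℓ : ℕ) ∣ M → (ℓ : ℕ) ≠ P.p →
      s44k2_TCp (IsLocalRing.ResidueField A) M ℓ δ = (W.apOfModel ℓ) • δ) :
    P.ModularRepOfLevel M := by
  obtain ⟨y, hy⟩ := s44k2_red_surj M P.p P.pp hpM A hA δ
  exact s44c_level_of_dens P M W hW (reductionModL A M)
    (fun ℓ => s44k2_TCp (IsLocalRing.ResidueField A) M ℓ)
    (fun ℓ _ hℓM hℓp z => s44k2_red_heckep M P.p P.pp hpM A hA ℓ hℓM hℓp z)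
    (s44kd_dens_main M P.p P.pp hpM A hA) δ hδ0 hpδ hδ y hy

/-- the same, with the class `δ` packaged existentially (the shape produced by [E2] + [E3b]) -/
theorem s44k2_level_of_delta' (P : FreyPackage) (M : ℕ) [NeZero M] (hpM : ¬ P.p ∣ M)
    (W : WeierstrassCurve ℤ) (hW : W.IsIntegralModelOf P.freyCurve)
    (A : ValuationSubring Qb) (hA : A.LiesOverPrime P.p)
    (h : ∃ δ : JZeroC (IsLocalRing.ResidueField A) M, δ ≠ 0 ∧ P.p • δ = 0 ∧
      ∀ ℓ : Nat.Primes, W.IsGoodPrimeFor ℓ → ¬ (ℓ : ℕ) ∣ M → (ℓ : ℕ) ≠ P.p →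
        s44k2_TCp (IsLocalRing.ResidueField A) M ℓ δ = (W.apOfModel ℓ) • δ) :
    P.ModularRepOfLevel M := by
  obtain ⟨δ, hδ0, hpδ, hδ⟩ := h
  exact s44k2_level_of_delta P M hpM W hW A hA δ hδ0 hpδ hδ

end Fermat.Agent.S44
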