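/-
S44, cells [E2-δ] / [E3b], abstract half (helper15; prefix `s44k2d_`): THE CLASS `[(1/p) div f]`.

`K` a field, `F / K` a function field with principal divisors (Prelude vocabulary: `Place K F`,
`Divisor K F`, `Pic0 K F`).  For `f ∈ F` put

  `s44k2d_cls p f := Pic0.mk ((1/p) · div f)`  if `p ≠ 0`, `f ≠ 0` and `p ∣ ord_Q f` for ALL `Q`,
  `s44k2d_cls p f := 0`                        otherwise.

* `s44k2d_cls_eq`    : `cls p f = Pic0.mk D` whenever `p · D = div f`;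
* `s44k2d_cls_tors`  : `p • cls p f = 0` (unconditionally);
* `s44k2d_cls_mul`   : `cls p (f g) = cls p f + cls p g` for `p`-divisible `f, g`;
* `s44k2d_cls_congr` : `cls p (κ f g^p) = cls p f` (`κ ∈ K^×`, `g ≠ 0`);
* `s44k2d_cls_corr`  : `cls p (N_ψ (φ f)) = Pic0.correspondence φ ψ … (cls p f)`   ([E3b], abstract);
* `s44k2d_cls_eq_zero` : `cls p f = 0` ⟹ `f = κ g^p`, when functions without zeros and poles are
  constant ([E2-δ] `ne`, abstract).
-/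
import Mathlib
import Fermat.Agent.S44.HeckeRes.KumCorr
import Fermat.Agent.S24.Hurwitz.Places

set_option autoImplicit false
set_option linter.style.haveILetI false
set_option linter.unusedSectionVars false

noncomputable section

namespace Fermat.Agent.S44

open AlgebraicCurve Fermat.Agent.S35 Fermat.Agent.S24

universe u v w
variable {K : Type u} {F : Type v} [Field K] [Field F] [Algebra K F]

/-- `f` is `p`-divisible: nonzero with all orders divisible by `p`. -/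
def s44k2d_PDiv (p : ℕ) (f : F) : Prop :=
  f ≠ 0 ∧ ∀ Q : Place K F, (p : ℤ) ∣ Q.ord f

variable (K) in
theorem s44k2d_pdiv_mul {p : ℕ} {f g : F} (hf : s44k2d_PDiv (K := K) p f)
    (hg : s44k2d_PDiv (K := K) p g) : s44k2d_PDiv (K := K) p (f * g) :=
  ⟨mul_ne_zero hf.1 hg.1, fun Q => by
    rw [Q.ord_mul hf.1 hg.1]
    exact dvd_add (hf.2 Q) (hg.2 Q)⟩

variable (K) in
theorem s44k2d_pdiv_pow (p : ℕ) {g : F} (hg : g ≠ 0) : s44k2d_PDiv (K := K) p (g ^ p) :=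
  ⟨pow_ne_zero p hg, fun Q => by
    have h := Q.ord_zpow g (p : ℤ)
    rw [zpow_natCast] at h
    rw [h]
    exact dvd_mul_right _ _⟩

variable (K) in
theorem s44k2d_pdiv_const (p : ℕ) {κ : K} (hκ : κ ≠ 0) :
    s44k2d_PDiv (K := K) p (algebraMap K F κ) :=
  ⟨by simpa using hκ, fun Q => by rw [hw_ord_algebraMap]; exact dvd_zero _⟩

variable (K) in
theorem s44k2d_pdiv_congr {p : ℕ} {f : F} (hf : s44k2d_PDiv (K := K) p f) {κ : K} (hκ : κ ≠ 0)
    {g : F} (hg : g ≠ 0) : s44k2d_PDiv (K := K) p (algebraMap K F κ * f * g ^ p) :=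
  s44k2d_pdiv_mul K (s44k2d_pdiv_mul K (s44k2d_pdiv_const K p hκ) hf) (s44k2d_pdiv_pow K p hg)

/-- `p`-divisibility only depends on `f` modulo `K^× · (F^×)^p`. -/
theorem s44k2d_pdiv_of_congr {p : ℕ} {f f' : F} {κ : K} (hκ : κ ≠ 0) {g : F} (hg : g ≠ 0)
    (hf0 : f ≠ 0) (h : f' = algebraMap K F κ * f * g ^ p) (hf' : s44k2d_PDiv (K := K) p f') :
    s44k2d_PDiv (K := K) p f := by
  refine ⟨hf0, fun Q => ?_⟩
  have hκ' : algebraMap K F κ ≠ 0 := by simpa using hκ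
  have h1 := hf'.2 Q
  rw [h, Q.ord_mul (mul_ne_zero hκ' hf0) (pow_ne_zero p hg), Q.ord_mul hκ' hf0,
    hw_ord_algebraMap, zero_add] at h1
  have h2 : (p : ℤ) ∣ Q.ord (g ^ p) := (s44k2d_pdiv_pow K p hg).2 Q
  exact (Int.dvd_add_left h2).mp h1

variable [HasPrincipalDivisors K F]

/-- the divisor `(1/p) · div f` of a `p`-divisible function. -/
theorem s44k2d_exists_div {p : ℕ} (hp : p ≠ 0) {f : F} (hf : s44k2d_PDiv (K := K) p f) :
    ∃ D : Divisor.degZero (K := K) (F := F),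
      ∀ Q : Place K F, (p : ℤ) * (D : Divisor K F) Q = Q.ord f := by
  obtain ⟨E, hE, hdeg⟩ := HasPrincipalDivisors.exists_divisor (K := K) f hf.1
  have hp' : (p : ℤ) ≠ 0 := by exact_mod_cast hp
  let D : Divisor K F := E.mapRange (fun n => n / (p : ℤ)) (by simp)
  have hD : ∀ Q : Place K F, (p : ℤ) * D Q = Q.ord f := fun Q => by
    show (p : ℤ) * (E.mapRange (fun n => n / (p : ℤ)) (by simp)) Q = _
    rw [Finsupp.mapRange_apply, hE Q]
    exact Int.mul_ediv_cancel' (hf.2 Q)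
  have hpD : (p : ℤ) • D = E := by
    ext Q
    rw [Finsupp.smul_apply, smul_eq_mul, hD Q, hE Q]
  have hdegD : Divisor.degree D = 0 := by
    have h := congrArg Divisor.degree hpD
    rw [map_zsmul, hdeg, smul_eq_mul] at h
    exact (mul_eq_zero.mp h).resolve_left hp'
  exact ⟨⟨D, Divisor.mem_degZero.mpr hdegD⟩, hD⟩

open Classical in
/-- **the class `[(1/p) div f]`** (zero unless `p ≠ 0` and `f` is `p`-divisible). -/
def s44k2d_cls (p : ℕ) (f : F) : Pic0 K F :=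
  if h : p ≠ 0 ∧ s44k2d_PDiv (K := K) p f then Pic0.mk (s44k2d_exists_div h.1 h.2).choose else 0

theorem s44k2d_cls_of_not {p : ℕ} {f : F} (h : ¬ (p ≠ 0 ∧ s44k2d_PDiv (K := K) p f)) :
    s44k2d_cls (K := K) p f = 0 := by
  rw [s44k2d_cls, dif_neg h]

/-- uniqueness of `(1/p) div f`. -/
theorem s44k2d_div_unique {p : ℕ} (hp : p ≠ 0) {f : F}
    {D D' : Divisor.degZero (K := K) (F := F)}
    (hD : ∀ Q : Place K F, (p : ℤ) * (D : Divisor K F) Q = Q.ord f)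
    (hD' : ∀ Q : Place K F, (p : ℤ) * (D' : Divisor K F) Q = Q.ord f) : D = D' := by
  have hp' : (p : ℤ) ≠ 0 := by exact_mod_cast hp
  apply Subtype.ext
  ext Q
  exact mul_left_cancel₀ hp' ((hD Q).trans (hD' Q).symm)

/-- `cls p f = [D]` whenever `p D = div f`. -/
theorem s44k2d_cls_eq {p : ℕ} (hp : p ≠ 0) {f : F} (hf : f ≠ 0)
    (D : Divisor.degZero (K := K) (F := F))
    (hD : ∀ Q : Place K F, (p : ℤ) * (D : Divisor K F) Q = Q.ord f) :
    s44k2d_cls (K := K) p f = Pic0.mk D := by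
  have hpd : s44k2d_PDiv (K := K) p f := ⟨hf, fun Q => ⟨_, (hD Q).symm⟩⟩
  have h : p ≠ 0 ∧ s44k2d_PDiv (K := K) p f := ⟨hp, hpd⟩
  rw [s44k2d_cls, dif_pos h]
  congr 1
  exact s44k2d_div_unique hp (s44k2d_exists_div h.1 h.2).choose_spec hD

/-- a representing divisor of `cls p f`. -/
theorem s44k2d_cls_spec {p : ℕ} (hp : p ≠ 0) {f : F} (hf : s44k2d_PDiv (K := K) p f) :
    ∃ D : Divisor.degZero (K := K) (F := F),
      (∀ Q : Place K F, (p : ℤ) * (D : Divisor K F) Q = Q.ord f) ∧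
      s44k2d_cls (K := K) p f = Pic0.mk D := by
  obtain ⟨D, hD⟩ := s44k2d_exists_div hp hf
  exact ⟨D, hD, s44k2d_cls_eq hp hf.1 D hD⟩

/-- `[D] = 0` for a principal `D`. -/
theorem s44k2d_mk_eq_zero {D : Divisor.degZero (K := K) (F := F)} {g : F} (hg : g ≠ 0)
    (hD : ∀ Q : Place K F, (D : Divisor K F) Q = Q.ord g) : Pic0.mk D = 0 := by
  rw [Pic0.mk, QuotientAddGroup.eq_zero_iff, AddSubgroup.mem_addSubgroupOf]
  exact ⟨g, hg, hD⟩

theorem s44k2d_mk_eq_zero_iff {D : Divisor.degZero (K := K) (F := F)} :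
    Pic0.mk D = 0 ↔ ∃ g : F, g ≠ 0 ∧ ∀ Q : Place K F, (D : Divisor K F) Q = Q.ord g := by
  rw [Pic0.mk, QuotientAddGroup.eq_zero_iff, AddSubgroup.mem_addSubgroupOf]
  rfl

/-- **`p • cls p f = 0`**, unconditionally. -/
theorem s44k2d_cls_tors (p : ℕ) (f : F) : p • s44k2d_cls (K := K) p f = 0 := by
  by_cases h : p ≠ 0 ∧ s44k2d_PDiv (K := K) p f
  · obtain ⟨D, hD, hcls⟩ := s44k2d_cls_spec h.1 h.2
    rw [hcls]
    have h1 : p • Pic0.mk D = Pic0.mk (p • D) := rfl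
    rw [h1]
    refine s44k2d_mk_eq_zero h.2.1 fun Q => ?_
    rw [← hD Q]
    show ((p • D : Divisor.degZero (K := K) (F := F)) : Divisor K F) Q = _
    rw [AddSubgroup.coe_nsmul, Finsupp.smul_apply, nsmul_eq_mul]
  · rw [s44k2d_cls_of_not h, smul_zero]

/-- **additivity on `p`-divisible functions**. -/
theorem s44k2d_cls_mul {p : ℕ} (hp : p ≠ 0) {f g : F} (hf : s44k2d_PDiv (K := K) p f)
    (hg : s44k2d_PDiv (K := K) p g) :
    s44k2d_cls (K := K) p (f * g) = s44k2d_cls (K := K) p f + s44k2d_cls (K := K) p g := by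
  obtain ⟨D, hD, hcD⟩ := s44k2d_cls_spec hp hf
  obtain ⟨E, hE, hcE⟩ := s44k2d_cls_spec hp hg
  rw [hcD, hcE, ← Pic0.mk_add]
  refine s44k2d_cls_eq hp (mul_ne_zero hf.1 hg.1) (D + E) fun Q => ?_
  rw [AddSubgroup.coe_add, Finsupp.add_apply, mul_add, hD Q, hE Q, Q.ord_mul hf.1 hg.1]

/-- `cls p (g^p) = 0`. -/
theorem s44k2d_cls_pow {p : ℕ} (hp : p ≠ 0) {g : F} (hg : g ≠ 0) :
    s44k2d_cls (K := K) p (g ^ p) = 0 := by
  obtain ⟨E, hE, hdeg⟩ := HasPrincipalDivisors.exists_divisor (K := K) g hg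
  have hE0 : E ∈ Divisor.degZero (K := K) (F := F) := Divisor.mem_degZero.mpr hdeg
  rw [s44k2d_cls_eq hp (pow_ne_zero p hg) ⟨E, hE0⟩ (fun Q => by
    have h := Q.ord_zpow g (p : ℤ)
    rw [zpow_natCast] at h
    rw [h, hE Q])]
  exact s44k2d_mk_eq_zero hg hE

/-- `cls p κ = 0` for a nonzero constant. -/
theorem s44k2d_cls_const {p : ℕ} (hp : p ≠ 0) {κ : K} (hκ : κ ≠ 0) :
    s44k2d_cls (K := K) p (algebraMap K F κ) = 0 := by
  have hκ' : algebraMap K F κ ≠ 0 := by simpa using hκ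
  rw [s44k2d_cls_eq hp hκ' 0 (fun Q => by
    rw [hw_ord_algebraMap]
    simp)]
  rfl

/-- **`cls p` only depends on `f` modulo `K^× · (F^×)^p`.** -/
theorem s44k2d_cls_congr {p : ℕ} (hp : p ≠ 0) {f f' : F} (hf0 : f ≠ 0) {κ : K} (hκ : κ ≠ 0)
    {g : F} (hg : g ≠ 0) (h : f' = algebraMap K F κ * f * g ^ p) :
    s44k2d_cls (K := K) p f' = s44k2d_cls (K := K) p f := by
  by_cases hf : s44k2d_PDiv (K := K) p f
  · rw [h, s44k2d_cls_mul hp (s44k2d_pdiv_mul K (s44k2d_pdiv_const K p hκ) hf)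
      (s44k2d_pdiv_pow K p hg), s44k2d_cls_mul hp (s44k2d_pdiv_const K p hκ) hf,
      s44k2d_cls_const hp hκ, s44k2d_cls_pow hp hg, zero_add, add_zero]
  · have hf' : ¬ s44k2d_PDiv (K := K) p f' := fun h' => hf (s44k2d_pdiv_of_congr hκ hg hf0 h h')
    rw [s44k2d_cls_of_not (fun h' => hf h'.2), s44k2d_cls_of_not (fun h' => hf' h'.2)]

/-- **[E2-δ] `ne`, abstract**: if the functions without zeros and poles are constants, then
`cls p f = 0` forces `f ∈ K^× · (F^×)^p`. -/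
theorem s44k2d_cls_eq_zero {p : ℕ} (hp : p ≠ 0)
    (hconst : ∀ u : F, u ≠ 0 → (∀ Q : Place K F, Q.ord u = 0) → ∃ c : K, u = algebraMap K F c)
    {f : F} (hf : s44k2d_PDiv (K := K) p f) (h0 : s44k2d_cls (K := K) p f = 0) :
    ∃ (κ : K) (g : F), κ ≠ 0 ∧ g ≠ 0 ∧ f = algebraMap K F κ * g ^ p := by
  obtain ⟨D, hD, hcls⟩ := s44k2d_cls_spec hp hf
  rw [hcls, s44k2d_mk_eq_zero_iff] at h0
  obtain ⟨g, hg, hDg⟩ := h0
  have hgp : g ^ p ≠ 0 := pow_ne_zero p hg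
  have hu0 : f * (g ^ p)⁻¹ ≠ 0 := mul_ne_zero hf.1 (inv_ne_zero hgp)
  obtain ⟨c, hc⟩ := hconst (f * (g ^ p)⁻¹) hu0 (fun Q => by
    have h := Q.ord_zpow g (p : ℤ)
    rw [zpow_natCast] at h
    rw [Q.ord_mul hf.1 (inv_ne_zero hgp), Q.ord_inv, h, ← hD Q, hDg Q]
    ring)
  have hc0 : c ≠ 0 := by
    rintro rfl
    rw [map_zero] at hc
    exact hu0 hc
  refine ⟨c, g, hc0, hg, ?_⟩
  rw [← hc, mul_assoc, inv_mul_cancel₀ hgp, mul_one]

/-! ### the correspondence -/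

section Corr

variable {F' : Type w} [Field F'] [Algebra K F'] [HasPrincipalDivisors K F']
variable (φ ψ : F →ₐ[K] F') (hφ : φ.toRingHom.IsIntegral) (hψ : ψ.toRingHom.IsIntegral)
  (hFI : FundamentalIdentityAlong K φ hφ) (hfin : FiniteAlong K ψ)
  (hN : NormFormulaAlong K ψ hfin)

include hφ hψ hFI hfin hN in
/-- `N_ψ (φ f)` is `p`-divisible when `f` is. -/
theorem s44k2d_pdiv_corr {p : ℕ} (hp : p ≠ 0) {f : F} (hf : s44k2d_PDiv (K := K) p f) :
    s44k2d_PDiv (K := K) p (s35pe_normAlong ψ (φ f)) := by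
  obtain ⟨D, hD⟩ := s44k2d_exists_div hp hf
  obtain ⟨h1, -, h3⟩ := s44hk_rep_corr φ ψ hφ hψ hFI hfin hN (m := (p : ℤ)) hf.1
    (rfl : Pic0.mk D = Pic0.mk D) hD
  exact ⟨h1, fun Q => ⟨_, (h3 Q).symm⟩⟩

/-- **[E3b], abstract**: `cls p (N_ψ (φ f)) = T (cls p f)` for `T = ψ_* φ^*`. -/
theorem s44k2d_cls_corr {p : ℕ} (hp : p ≠ 0) {f : F} (hf : s44k2d_PDiv (K := K) p f) :
    s44k2d_cls (K := K) p (s35pe_normAlong ψ (φ f)) =
      Pic0.correspondence φ ψ hφ hψ hFI hfin hN (s44k2d_cls (K := K) p f) := by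
  obtain ⟨D, hD, hcls⟩ := s44k2d_cls_spec hp hf
  obtain ⟨h1, h2, h3⟩ := s44hk_rep_corr φ ψ hφ hψ hFI hfin hN (m := (p : ℤ)) hf.1
    (rfl : Pic0.mk D = Pic0.mk D) hD
  rw [hcls, ← h2]
  exact s44k2d_cls_eq hp h1 _ h3

end Corr

end Fermat.Agent.S44
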