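/-
S44, cell [C2] OLD-k, THE COMPOSITE (helper27; prefix `s44k2g_`): from the outputs of [E2-δ] and
[E3b] to the field `oldK` of `s44bg_Cells` (`S44/Big/Seams.lean`).

`Fr : s44_Frame P M` a frame whose place `Fr.A` lies over `p = P.p ∤ M`, `kA` the residue field of
`Fr.A`, `ν : J₀(M p) → Sg → ZMod p` the residue vector.  The interface `s44k2g_Delta Fr ν δ`
collects what [E2] and [E3] have to say about the class
`δ z = [(1/p) div (red_∞ f_z)] ∈ Pic⁰(F̃_M / kA) = JZeroC kA M` (junk unless `p z = 0`, `ν z = 0`):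

* `ne`    **[E2-δ]** `Ψ_{w_∞}(z) ≠ 0` (`¬ D1inf z`) ⟹ `δ z ≠ 0`;
* `tors`  **[E2-δ]** `p • δ z = 0`;
* `add`   **[E2-δ]** additivity of `δ` on `{p z = 0, ν z = 0}`;
* `hecke` **[E3b]**  `δ (T_ℓ z) = T̃_ℓ (δ z)` for EVERY prime `ℓ ∤ M p`
  (`T̃_ℓ = s44k2_TCp kA M ℓ`, `S44/OldK/LevelM.lean`), whenever `ν z = 0 = ν (T_ℓ z)`.

`s44k2g_oldK` : `s44k2g_Delta Fr ν δ` + additivity of `ν` on `J₀(M p)[p]` ⟹ `s44bg_OldK_stmt Fr ν`
(via `s44k2_level_of_delta`, helper15).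
-/
import Mathlib
import Fermat.Agent.S44.OldK.LevelM
import Fermat.Agent.S44.Big.Seams

set_option autoImplicit false
set_option linter.unusedSectionVars false
set_option linter.style.haveILetI false
set_option synthInstance.maxHeartbeats 400000
set_option maxHeartbeats 1000000

noncomputable section

namespace Fermat.Agent.S44

open ModularCurve AlgebraicCurve

variable {P : FreyPackage} {M : ℕ} [NeZero M] [NeZero (M * P.p)] (Fr : s44_Frame P M)
  {Sg : Type} (ν : JZero (M * P.p) → Sg → ZMod P.p)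
  (δ : JZero (M * P.p) → JZeroC (IsLocalRing.ResidueField Fr.A) M)

/-- **the interface [E2-δ] + [E3b] → [C2]** -/
structure s44k2g_Delta : Prop where
  ne : ∀ z : JZero (M * P.p), P.p • z = 0 → ¬ Fr.D1inf z → ν z = 0 → δ z ≠ 0
  tors : ∀ z : JZero (M * P.p), P.p • z = 0 → ν z = 0 → P.p • δ z = 0
  add : ∀ z z' : JZero (M * P.p), P.p • z = 0 → P.p • z' = 0 → ν z = 0 → ν z' = 0 →
    δ (z + z') = δ z + δ z'
  hecke : ∀ ℓ : Nat.Primes, ¬ (ℓ : ℕ) ∣ M * P.p → ∀ z : JZero (M * P.p), P.p • z = 0 →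
    ν z = 0 → ν (heckeOperatorBar (M * P.p) ℓ z) = 0 →
    δ (heckeOperatorBar (M * P.p) ℓ z) = s44k2_TCp (IsLocalRing.ResidueField Fr.A) M ℓ (δ z)

variable {Fr ν δ}

/-! ### `ν` on multiples -/

section Nu

variable (hν : ∀ z z' : JZero (M * P.p), P.p • z = 0 → P.p • z' = 0 → ν (z + z') = ν z + ν z')

include hν

theorem s44k2g_nu_zero : ν 0 = 0 := by
  have h := hν 0 0 (smul_zero _) (smul_zero _)
  rw [add_zero] at h
  exact left_eq_add.1 h

theorem s44k2g_nu_nsmul (z : JZero (M * P.p)) (hz : P.p • z = 0) (n : ℕ) :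
    ν (n • z) = n • ν z := by
  induction n with
  | zero => rw [zero_nsmul, zero_nsmul]; exact s44k2g_nu_zero hν
  | succ n ih =>
    have hnz : P.p • (n • z) = 0 := by rw [smul_comm, hz, smul_zero]
    rw [succ_nsmul, succ_nsmul, hν _ _ hnz hz, ih]

theorem s44k2g_nu_neg (z : JZero (M * P.p)) (hz : P.p • z = 0) : ν (-z) = -ν z := by
  have hnz : P.p • (-z) = 0 := by rw [neg_nsmul, hz, _root_.neg_zero]
  have h := hν z (-z) hz hnz
  rw [add_neg_cancel, s44k2g_nu_zero hν] at h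
  exact (neg_eq_of_add_eq_zero_right h.symm).symm

theorem s44k2g_nu_zsmul_eq_zero (z : JZero (M * P.p)) (hz : P.p • z = 0) (h0 : ν z = 0)
    (n : ℤ) : ν (n • z) = 0 := by
  obtain ⟨m, rfl | rfl⟩ := n.eq_nat_or_neg
  · rw [natCast_zsmul, s44k2g_nu_nsmul hν z hz, h0, smul_zero]
  · have hmz : P.p • (m • z) = 0 := by rw [smul_comm, hz, smul_zero]
    rw [neg_smul, natCast_zsmul, s44k2g_nu_neg hν _ hmz, s44k2g_nu_nsmul hν z hz, h0, smul_zero,
      _root_.neg_zero]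

end Nu

/-! ### `δ` on multiples -/

section Delta

variable (hD : s44k2g_Delta Fr ν δ)
  (hν : ∀ z z' : JZero (M * P.p), P.p • z = 0 → P.p • z' = 0 → ν (z + z') = ν z + ν z')

include hD hν

theorem s44k2g_delta_zero : δ 0 = 0 := by
  have h := hD.add 0 0 (smul_zero _) (smul_zero _) (s44k2g_nu_zero hν) (s44k2g_nu_zero hν)
  rw [add_zero] at h
  exact left_eq_add.1 h

theorem s44k2g_delta_nsmul (z : JZero (M * P.p)) (hz : P.p • z = 0) (h0 : ν z = 0) (n : ℕ) :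
    δ (n • z) = n • δ z := by
  induction n with
  | zero => rw [zero_nsmul, zero_nsmul]; exact s44k2g_delta_zero hD hν
  | succ n ih =>
    have hnz : P.p • (n • z) = 0 := by rw [smul_comm, hz, smul_zero]
    have hn0 : ν (n • z) = 0 := by
      have := s44k2g_nu_zsmul_eq_zero hν z hz h0 (n : ℤ)
      rwa [natCast_zsmul] at this
    rw [succ_nsmul, succ_nsmul, hD.add _ _ hnz hz hn0 h0, ih]

theorem s44k2g_delta_neg (z : JZero (M * P.p)) (hz : P.p • z = 0) (h0 : ν z = 0) :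
    δ (-z) = -δ z := by
  have hnz : P.p • (-z) = 0 := by rw [neg_nsmul, hz, _root_.neg_zero]
  have hn0 : ν (-z) = 0 := by rw [s44k2g_nu_neg hν z hz, h0, _root_.neg_zero]
  have h := hD.add z (-z) hz hnz h0 hn0
  rw [add_neg_cancel, s44k2g_delta_zero hD hν] at h
  exact (neg_eq_of_add_eq_zero_right h.symm).symm

theorem s44k2g_delta_zsmul (z : JZero (M * P.p)) (hz : P.p • z = 0) (h0 : ν z = 0) (n : ℤ) :
    δ (n • z) = n • δ z := by
  obtain ⟨m, rfl | rfl⟩ := n.eq_nat_or_neg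
  · rw [natCast_zsmul, natCast_zsmul, s44k2g_delta_nsmul hD hν z hz h0]
  · have hmz : P.p • (m • z) = 0 := by rw [smul_comm, hz, smul_zero]
    have hm0 : ν (m • z) = 0 := by
      have := s44k2g_nu_zsmul_eq_zero hν z hz h0 (m : ℤ)
      rwa [natCast_zsmul] at this
    rw [neg_smul, neg_smul, natCast_zsmul, natCast_zsmul, s44k2g_delta_neg hD hν _ hmz hm0,
      s44k2g_delta_nsmul hD hν z hz h0]

end Delta

/-- **[C2], the composite**: the field `oldK` of `s44bg_Cells` from [E2-δ] + [E3b]. -/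
theorem s44k2g_oldK (hpM : ¬ P.p ∣ M) (hA : Fr.A.LiesOverPrime P.p)
    (hD : s44k2g_Delta Fr ν δ)
    (hν : ∀ z z' : JZero (M * P.p), P.p • z = 0 → P.p • z' = 0 → ν (z + z') = ν z + ν z') :
    s44bg_OldK_stmt Fr ν := by
  intro W hW z hz _ _ heig hD1 hν0
  refine s44k2_level_of_delta P M hpM W hW Fr.A hA (δ z) (hD.ne z hz hD1 hν0)
    (hD.tors z hz hν0) ?_
  intro ℓ hgood hℓM hℓp
  have hℓN : ¬ (ℓ : ℕ) ∣ M * P.p := by
    intro h
    rcases (Nat.Prime.dvd_mul ℓ.2).mp h with h1 | h1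
    · exact hℓM h1
    · exact hℓp ((Nat.prime_dvd_prime_iff_eq ℓ.2 P.pp).mp h1)
  have he := heig ℓ hgood hℓN hℓp
  have hνT : ν (heckeOperatorBar (M * P.p) ℓ z) = 0 := by
    rw [he]
    exact s44k2g_nu_zsmul_eq_zero hν z hz hν0 _
  rw [← hD.hecke ℓ hℓN z hz hν0 hνT, he, s44k2g_delta_zsmul hD hν z hz hν0]

end Fermat.Agent.S44
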