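/-
S44, cells [E2-δ] + [E3b] → [C2] (helper15; prefix `s44k2d_`): THE CLASS `δ` AND THE INTERFACE
`s44k2g_Delta` (helper27, `OldK/Glue.lean`) AS PURE ASSEMBLY.

`A = s44f_A p` the place of `ℚ̄` over `p = P.p ∤ M`, `kA` its residue field, `FF = s44e_FF A M`
the special fibre function field of level `M` (helper20, `Res/Defs.lean`),
`f̄_z = s44e_fbar A M p z` the chosen reduction of a representative of `z ∈ J₀(M p)`.

* `s44k2d_delta P M hpM z := s44k2d_cls p (f̄_z) = [(1/p) div f̄_z] ∈ Pic⁰(FF / kA) = JZeroC kA M`;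
* **`s44k2d_Delta_of`** : `s44k2g_Delta (s44_frame2 P M hpM) (s44e_nu …) (s44k2d_delta …)` from the six
  facts about the predicate `s44e_Fbar A M p z fb` ("`fb ≠ 0` is the reduction of a representative of
  `z`"):
  `hE` existence, `hU` uniqueness modulo `kA^× (FF^×)^p`, `hAdd` multiplicativity,
  `hOrd` **(E2-ord)** `p ∣ ord_Q fb` off the supersingular places,
  `hHecke` **(★★)** `N_ᾱ (β̄ fb)` is a reduction for `T_ℓ z`,
  `hNe` **(E2-δ)** `fb ∈ kA^× (FF^×)^p ⟹ D1inf z`.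
-/
import Mathlib
import Fermat.Agent.S44.OldK.Cls
import Fermat.Agent.S44.OldK.Glue
import Fermat.Agent.S44.Res.Defs
import Fermat.Agent.JT3.Riemann.Approx

set_option autoImplicit false
set_option linter.unusedSectionVars false
set_option linter.style.haveILetI false
set_option synthInstance.maxHeartbeats 400000
set_option maxHeartbeats 1000000

noncomputable section

namespace Fermat.Agent.S44

open ModularCurve AlgebraicCurve
open Fermat.Agent.JT3 Fermat.Agent.S24 Fermat.Agent.S35 Fermat.Agent.MZ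

variable (P : FreyPackage) (M : ℕ) [NeZero M]

/-- `j̃` is a separating generator of the special fibre function field of level `M`. -/
theorem s44k2d_sepGen (hpM : ¬ P.p ∣ M) :
    rt_IsSepGen (s44e_kA (s44f_A P.p P.pp)) (jcr_j (k := s44e_kA (s44f_A P.p P.pp)) M) := by
  haveI : Fact P.p.Prime := ⟨P.pp⟩
  haveI := jcr_charP (s44f_A P.p P.pp) (s44f_A_liesOver P.p P.pp)
  haveI := jcr_isAlgClosed (s44f_A P.p P.pp)
  exact jcr_isSepGen M hpM (jcr_rho (s44f_A P.p P.pp) (s44f_A_liesOver P.p P.pp))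

/-- the special fibre function field of level `M` has principal divisors. -/
theorem s44k2d_hpd (hpM : ¬ P.p ∣ M) :
    HasPrincipalDivisors (s44e_kA (s44f_A P.p P.pp)) (s44e_FF (s44f_A P.p P.pp) M) := by
  haveI : IsAlgClosed (s44e_kA (s44f_A P.p P.pp)) := jcr_isAlgClosed (s44f_A P.p P.pp)
  exact rt_hasPrincipalDivisors (s44k2d_sepGen P M hpM)

/-- on the special fibre the functions without zeros and poles are constant. -/
theorem s44k2d_hconst (hpM : ¬ P.p ∣ M) (u : s44e_FF (s44f_A P.p P.pp) M) (hu : u ≠ 0)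
    (h : ∀ Q : Place (s44e_kA (s44f_A P.p P.pp)) (s44e_FF (s44f_A P.p P.pp) M), Q.ord u = 0) :
    ∃ c : s44e_kA (s44f_A P.p P.pp),
      u = algebraMap (s44e_kA (s44f_A P.p P.pp)) (s44e_FF (s44f_A P.p P.pp) M) c := by
  haveI : IsAlgClosed (s44e_kA (s44f_A P.p P.pp)) := jcr_isAlgClosed (s44f_A P.p P.pp)
  exact rt_const_of_forall_mem (s44k2d_sepGen P M hpM) u
    (fun v => (hw_mem_iff_ord_nonneg v hu).mpr (h v).ge)

variable [NeZero (M * P.p)]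

/-- **the class `δ z = [(1/p) div f̄_z]`** of `Pic⁰` of the special fibre of level `M`. -/
def s44k2d_delta (hpM : ¬ P.p ∣ M) (z : JZero (M * P.p)) :
    JZeroC (s44e_kA (s44f_A P.p P.pp)) M :=
  haveI := s44k2d_hpd P M hpM
  s44k2d_cls (K := s44e_kA (s44f_A P.p P.pp)) P.p (s44e_fbar (s44f_A P.p P.pp) M P.p z)

theorem s44k2d_delta_def (hpM : ¬ P.p ∣ M) (z : JZero (M * P.p)) :
    s44k2d_delta P M hpM z =
      (haveI := s44k2d_hpd P M hpM
       s44k2d_cls (K := s44e_kA (s44f_A P.p P.pp)) P.p (s44e_fbar (s44f_A P.p P.pp) M P.p z)) :=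
  rfl

/-- the chosen reduction is a reduction. -/
theorem s44k2d_fbar_spec {z : JZero (M * P.p)}
    (h : ∃ fb, s44e_Fbar (s44f_A P.p P.pp) M P.p z fb) :
    s44e_Fbar (s44f_A P.p P.pp) M P.p z (s44e_fbar (s44f_A P.p P.pp) M P.p z) := by
  rw [s44e_fbar, dif_pos h]
  exact h.choose_spec

section Main

variable (hpM : ¬ P.p ∣ M)

local notation "A₀" => s44f_A P.p P.pp
local notation "kA" => s44e_kA (s44f_A P.p P.pp)
local notation "FF" => s44e_FF (s44f_A P.p P.pp) M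

/-- **[E2-δ] + [E3b] ⟹ the interface of [C2]**, as pure assembly. -/
theorem s44k2d_Delta_of
    (hE : ∀ z : JZero (M * P.p), P.p • z = 0 → ∃ fb, s44e_Fbar A₀ M P.p z fb)
    (hU : ∀ (z : JZero (M * P.p)) (fb fb' : FF), s44e_Fbar A₀ M P.p z fb →
      s44e_Fbar A₀ M P.p z fb' →
      ∃ (κ : kA) (g : FF), κ ≠ 0 ∧ g ≠ 0 ∧ fb' = algebraMap kA FF κ * fb * g ^ P.p)
    (hAdd : ∀ (z z' : JZero (M * P.p)) (fb fb' : FF), s44e_Fbar A₀ M P.p z fb →
      s44e_Fbar A₀ M P.p z' fb' → s44e_Fbar A₀ M P.p (z + z') (fb * fb'))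
    (hOrd : ∀ (z : JZero (M * P.p)) (fb : FF), P.p • z = 0 → s44e_Fbar A₀ M P.p z fb →
      ∀ Q : Place kA FF, ¬ s44e_IsSS A₀ M P.p P.pp hpM Q → (P.p : ℤ) ∣ Q.ord fb)
    (hHecke : ∀ ℓ : Nat.Primes, ¬ (ℓ : ℕ) ∣ M * P.p → ∀ (z : JZero (M * P.p)) (fb : FF),
      P.p • z = 0 → s44e_Fbar A₀ M P.p z fb →
      s44e_Fbar A₀ M P.p (heckeOperatorBar (M * P.p) ℓ z)
        (haveI : NeZero (ℓ : ℕ) := ⟨ℓ.2.ne_zero⟩
         s35pe_normAlong (mzrh_alC kA M ℓ) (mzrh_beC kA M ℓ fb)))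
    (hNe : ∀ (z : JZero (M * P.p)) (fb : FF), P.p • z = 0 → s44e_Fbar A₀ M P.p z fb →
      (∃ (κ : kA) (g : FF), κ ≠ 0 ∧ g ≠ 0 ∧ fb = algebraMap kA FF κ * g ^ P.p) →
      (s44_frame2 P M hpM).D1inf z) :
    s44k2g_Delta (s44_frame2 P M hpM) (s44e_nu A₀ M P.p P.pp hpM) (s44k2d_delta P M hpM) := by
  haveI : Fact P.p.Prime := ⟨P.pp⟩
  haveI hcharP := jcr_charP A₀ (s44f_A_liesOver P.p P.pp)
  haveI halg := jcr_isAlgClosed A₀
  haveI hpd := s44k2d_hpd P M hpM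
  have hp0 : P.p ≠ 0 := P.hp0
  -- `f̄_z` is a reduction, and is `p`-divisible when `ν z = 0`
  have hspec : ∀ z : JZero (M * P.p), P.p • z = 0 →
      s44e_Fbar A₀ M P.p z (s44e_fbar A₀ M P.p z) := fun z hz => s44k2d_fbar_spec P M (hE z hz)
  have hpdiv : ∀ z : JZero (M * P.p), P.p • z = 0 → s44e_nu A₀ M P.p P.pp hpM z = 0 →
      s44k2d_PDiv (K := kA) P.p (s44e_fbar A₀ M P.p z) := by
    intro z hz hν0
    refine ⟨(hspec z hz).1, fun Q => ?_⟩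
    by_cases hQ : s44e_IsSS A₀ M P.p P.pp hpM Q
    · have h1 := congrFun hν0 ⟨Q, hQ⟩
      have h2 : ((Q.ord (s44e_fbar A₀ M P.p z) : ℤ) : ZMod P.p) = 0 := h1
      exact (ZMod.intCast_zmod_eq_zero_iff_dvd _ _).mp h2
    · exact hOrd z _ hz (hspec z hz) Q hQ
  refine ⟨?_, ?_, ?_, ?_⟩
  · -- `ne`
    intro z hz hD1 hν0 h0
    rw [s44k2d_delta_def] at h0
    obtain ⟨κ, g, hκ, hg, hfg⟩ := s44k2d_cls_eq_zero hp0 (s44k2d_hconst P M hpM) (hpdiv z hz hν0) h0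
    exact hD1 (hNe z _ hz (hspec z hz) ⟨κ, g, hκ, hg, hfg⟩)
  · -- `tors`
    intro z _ _
    rw [s44k2d_delta_def]
    exact s44k2d_cls_tors P.p _
  · -- `add`
    intro z z' hz hz' hν0 hν0'
    have hzz : P.p • (z + z') = 0 := by rw [nsmul_add, hz, hz', add_zero]
    obtain ⟨κ, g, hκ, hg, hfg⟩ := hU (z + z') _ _
      (hAdd z z' _ _ (hspec z hz) (hspec z' hz')) (hspec (z + z') hzz)
    rw [s44k2d_delta_def, s44k2d_delta_def, s44k2d_delta_def,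
      s44k2d_cls_congr hp0 (mul_ne_zero (hspec z hz).1 (hspec z' hz').1) hκ hg hfg,
      s44k2d_cls_mul hp0 (hpdiv z hz hν0) (hpdiv z' hz' hν0')]
    rfl
  · -- `hecke`
    intro ℓ hℓN z hz hν0 _
    haveI : NeZero (ℓ : ℕ) := ⟨ℓ.2.ne_zero⟩
    have hpℓ : ¬ P.p ∣ (ℓ : ℕ) := fun hd =>
      hℓN ((Nat.prime_dvd_prime_iff_eq P.pp ℓ.2).mp hd ▸ Dvd.intro_left M rfl)
    have hTz : P.p • heckeOperatorBar (M * P.p) ℓ z = 0 := by
      rw [← map_nsmul, hz, map_zero]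
    obtain ⟨hαC, hβC, hPC, hfinC, hFIC, hNC⟩ :=
      mzrh_heckeInputsC M ℓ (jcr_rho A₀ (s44f_A_liesOver P.p P.pp)) hpM hpℓ
    haveI := hPC
    obtain ⟨κ, g, hκ, hg, hfg⟩ := hU _ _ _ (hHecke ℓ hℓN z _ hz (hspec z hz)) (hspec _ hTz)
    have hN0 : s35pe_normAlong (mzrh_alC kA M ℓ) (mzrh_beC kA M ℓ (s44e_fbar A₀ M P.p z)) ≠ 0 :=
      (hHecke ℓ hℓN z _ hz (hspec z hz)).1
    show s44k2d_delta P M hpM (heckeOperatorBar (M * P.p) ℓ z) =
      s44k2_TCp kA M ℓ (s44k2d_delta P M hpM z)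
    rw [s44k2d_delta_def, s44k2d_delta_def, s44k2d_cls_congr hp0 hN0 hκ hg hfg,
      s44k2d_cls_corr (mzrh_beC kA M ℓ) (mzrh_alC kA M ℓ) hβC hαC hFIC hfinC hNC hp0
        (hpdiv z hz hν0), s44k2_TCp_eq, s44k2_TC_eq hαC hβC hFIC hfinC hNC]

end Main

end Fermat.Agent.S44
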